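import Fermat.Agent.EigenSystems.Twist
import Mathlib.GroupTheory.Index
import Mathlib.GroupTheory.GroupAction.Quotient
import Mathlib.NumberTheory.ModularForms.CongruenceSubgroups

/-!
# Injectivity of the twist

The twist is injective in characteristic zero.

Let `K₀` be the elements of `Γ₀(N q²)` with `d ≡ 1`.  If the twist of `c` vanishes then `c|K₀` is
invariant under conjugation by `(1 1/q; 0 1)`, hence under an element of `Γ₀(N q)` on which the
character is not trivial, so `c|K₀ = 0` and `c` is a coboundary.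
-/

set_option autoImplicit false

open CongruenceSubgroup Matrix.SpecialLinearGroup
open scoped MatrixGroups

universe uK

namespace Fermat.Agent.EigenSystems

open HeckeJ0 HeckeModule

/-- The elements with `M' ∣ c` and `d ≡ 1 (mod M)`. -/
def smallGroup (M M' : ℕ) : Subgroup (Gamma0 M) where
  carrier := {g | (M' : ℤ) ∣ (g : SL(2, ℤ)) 1 0 ∧ dUnit M g = 1}
  one_mem' := ⟨by simp, map_one _⟩
  mul_mem' := fun {g h} hg hh => by
    refine ⟨?_, by rw [map_mul, hg.2, hh.2, one_mul]⟩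
    show (M' : ℤ) ∣ ((g : SL(2, ℤ)) * (h : SL(2, ℤ))) 1 0
    rw [Matrix.SpecialLinearGroup.coe_mul, Matrix.mul_apply, Fin.sum_univ_two]
    exact dvd_add (hg.1.mul_right _) (hh.1.mul_left _)
  inv_mem' := fun {g} hg => by
    refine ⟨?_, by rw [map_inv, hg.2, inv_one]⟩
    show (M' : ℤ) ∣ (g : SL(2, ℤ))⁻¹ 1 0
    rw [Matrix.SpecialLinearGroup.coe_inv, Matrix.adjugate_fin_two]
    simpa using hg.1

lemma finiteIndex_smallGroup (M M' : ℕ) [NeZero M'] (h : M ∣ M') :
    (smallGroup M M').FiniteIndex := by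
  have hle : (Gamma M').subgroupOf (Gamma0 M) ≤ smallGroup M M' := by
    intro g hg
    rw [Subgroup.mem_subgroupOf, Gamma_mem] at hg
    refine ⟨(ZMod.intCast_zmod_eq_zero_iff_dvd _ _).mp hg.2.2.1, Units.ext ?_⟩
    rw [coe_dUnit, Units.val_one, ← map_intCast (ZMod.castHom h (ZMod M)), hg.2.2.2, map_one]
  have : ((Gamma M').subgroupOf (Gamma0 M)).FiniteIndex := inferInstance
  exact Subgroup.finiteIndex_of_le hle

section Averaging

variable {K : Type uK} [Field K] [CharZero K] {M : ℕ} {χ : (ZMod M)ˣ →* K}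

/-- A cocycle vanishing on a subgroup of finite index is a coboundary. -/
theorem toCoh_eq_zero_of_subgroup (c : Cocycle (scalarRep χ K)) (H : Subgroup (Gamma0 M))
    [H.FiniteIndex] (hH : ∀ h ∈ H, c.1 h = 0) : toCoh (scalarRep χ K) c = 0 := by
  classical
  have : Fintype (Gamma0 M ⧸ H) := H.fintypeQuotientOfFiniteIndex
  set n : K := (Fintype.card (Gamma0 M ⧸ H) : K)
  have hn : n ≠ 0 := Nat.cast_ne_zero.mpr Fintype.card_ne_zero
  set s : K := ∑ x : Gamma0 M ⧸ H, c.1 (Quotient.out x)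
  have key : ∀ g : Gamma0 M, s = n * c.1 g + χ (dUnit M g) * s := by
    intro g
    have h1 : ∀ x : Gamma0 M ⧸ H,
        c.1 (Quotient.out (g • x)) = c.1 g + χ (dUnit M g) * c.1 (Quotient.out x) := by
      intro x
      have hmk : ((g • x).out : Gamma0 M ⧸ H) = ((g * x.out : Gamma0 M) : Gamma0 M ⧸ H) := by
        rw [QuotientGroup.out_eq', ← smul_eq_mul g x.out, ← MulAction.Quotient.smul_coe,
          QuotientGroup.out_eq']
      have hmem := QuotientGroup.eq.mp hmk.symm
      have h2 := c.2.1 (g * x.out) ((g * x.out)⁻¹ * (g • x).out)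
      rw [mul_inv_cancel_left, hH _ hmem, map_zero, add_zero, c.2.1 g x.out] at h2
      exact h2
    calc s = ∑ x : Gamma0 M ⧸ H, c.1 (Quotient.out (g • x)) :=
          (Equiv.sum_comp (MulAction.toPerm g)
            fun x : Gamma0 M ⧸ H => c.1 (Quotient.out x)).symm
      _ = _ := by
          rw [Finset.sum_congr rfl fun x _ => h1 x, Finset.sum_add_distrib, Finset.sum_const,
            Finset.card_univ, nsmul_eq_mul, ← Finset.mul_sum]
  rw [toCoh_eq_zero_iff]
  refine ⟨-s / n, fun g => ?_⟩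
  rw [scalarRep_apply, smul_eq_mul]
  field_simp
  linear_combination -(key g)

end Averaging

section Sum

variable {q : ℕ} [hqp : Fact q.Prime] {K : Type uK} [Field K] [CharZero K]

/-- Twisting and untwisting. -/
lemma twisted_double_sum {ψ : (ZMod q)ˣ →* K} (hψ : ψ ≠ 1) (Z : ZMod q → K) (w : ZMod q) :
    ∑ y : (ZMod q)ˣ, (ψ (-y))⁻¹ * ∑ b : (ZMod q)ˣ, ψ b * Z ((b : ZMod q) + (y + w))
      = (q : K) * Z w - ∑ z, Z z := by
  classical
  have hψ0 : ∑ b : (ZMod q)ˣ, ψ b = 0 := sum_hom_units_eq_zero ψ hψ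
  have hinv : ∀ u : (ZMod q)ˣ, (ψ u)⁻¹ * ψ u = 1 := fun u =>
    inv_mul_cancel₀ fun hu => by
      have := map_mul ψ u u⁻¹
      rw [mul_inv_cancel, map_one, hu, zero_mul] at this
      exact one_ne_zero this
  -- substitute `b = -t y`
  have h1 : ∀ y : (ZMod q)ˣ, (ψ (-y))⁻¹ * ∑ b : (ZMod q)ˣ, ψ b * Z ((b : ZMod q) + (y + w))
      = ∑ t : (ZMod q)ˣ, ψ t * Z (w + (1 - (t : ZMod q)) * y) := by
    intro y
    rw [Finset.mul_sum]
    refine (Equiv.sum_comp (Equiv.mulRight (-y)) _).symm.trans (Finset.sum_congr rfl fun t _ => ?_)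
    simp only [Equiv.coe_mulRight, map_mul, Units.val_mul, Units.val_neg]
    rw [show (t : ZMod q) * -(y : ZMod q) + ((y : ZMod q) + w)
        = w + (1 - (t : ZMod q)) * y by ring]
    linear_combination (ψ t * Z (w + (1 - (t : ZMod q)) * y)) * hinv (-y)
  rw [Finset.sum_congr rfl fun y _ => h1 y, Finset.sum_comm]
  set S : K := ∑ y : (ZMod q)ˣ, Z (w + y) with hS
  have h2 : ∀ t : (ZMod q)ˣ, ∑ y : (ZMod q)ˣ, ψ t * Z (w + (1 - (t : ZMod q)) * y)
      = ψ t * S + if t = 1 then ((q - 1 : ℕ) : K) * Z w - S else 0 := by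
    intro t
    rw [← Finset.mul_sum]
    by_cases ht : t = 1
    · subst ht
      rw [if_pos rfl, map_one, one_mul, one_mul]
      simp [ZMod.card_units q]
    · rw [if_neg ht, add_zero]
      have hu : IsUnit (1 - (t : ZMod q)) := isUnit_iff_ne_zero.mpr
        (sub_ne_zero.mpr fun h' => ht (Units.ext h'.symm))
      congr 1
      rw [hS, ← Equiv.sum_comp (Equiv.mulLeft hu.unit) fun y : (ZMod q)ˣ => Z (w + y)]
      exact Finset.sum_congr rfl fun y _ => rfl
  rw [Finset.sum_congr rfl fun t _ => h2 t, Finset.sum_add_distrib, Finset.sum_ite_eq',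
    if_pos (Finset.mem_univ _), ← Finset.sum_mul, hψ0, zero_mul, zero_add]
  rw [Nat.cast_sub hqp.out.one_le, Nat.cast_one]
  have h3 : ∑ z, Z z = Z w + S := by
    rw [← Equiv.sum_comp (Equiv.addLeft w) Z,
      ← Finset.add_sum_erase Finset.univ _ (Finset.mem_univ (0 : ZMod q))]
    simp only [Equiv.coe_addLeft, add_zero]
    congr 1
    refine Finset.sum_bij' (fun z hz => Units.mk0 z (Finset.ne_of_mem_erase hz))
      (fun y _ => (y : ZMod q)) (fun _ _ => Finset.mem_univ _)
      (fun y _ => Finset.mem_erase.mpr ⟨y.ne_zero, Finset.mem_univ _⟩)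
      (fun z _ => rfl) (fun y _ => Units.ext rfl) (fun z _ => rfl)
  rw [h3]
  ring

/-- If all twisted averages of `Z` vanish, `Z` is constant. -/
lemma eq_of_twisted_sum_eq_zero {ψ : (ZMod q)ˣ →* K} (hψ : ψ ≠ 1) (Z : ZMod q → K)
    (h : ∀ y : ZMod q, ∑ b : (ZMod q)ˣ, ψ b * Z ((b : ZMod q) + y) = 0) (x y : ZMod q) :
    Z x = Z y := by
  have key : ∀ w : ZMod q, (q : K) * Z w = ∑ z, Z z := fun w => by
    have h1 := twisted_double_sum hψ Z w
    rw [Finset.sum_eq_zero fun y _ => by rw [h, mul_zero]] at h1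
    exact sub_eq_zero.mp h1.symm
  have hq : (q : K) ≠ 0 := Nat.cast_ne_zero.mpr hqp.out.ne_zero
  exact mul_left_cancel₀ hq ((key x).trans (key y).symm)

end Sum

variable {N q : ℕ} [hqp : Fact q.Prime] {K : Type uK} [Field K] [CharZero K]
  {χ : (ZMod (N * q))ˣ →* K} {χ' : (ZMod (N * q * q))ˣ →* K} {ψ : (ZMod q)ˣ →* K}
  (hχ : TwistChar χ χ' ψ (dvd_mul_left q N) (dvd_refl (N * q * q)))

include hχ in
/-- A cocycle of level `N q` and character `χ' ψ²` invariant under translation by `1/q` on the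
elements of level `N q²` is a coboundary. -/
theorem toCoh_eq_zero_of_translation [NeZero N] (hqN : ¬ q ∣ N) (hψ : ψ ^ 2 ≠ 1)
    (hχ' : ∀ u : (ZMod (N * q * q))ˣ,
      ZMod.unitsMap ((dvd_mul_right N q).trans (dvd_mul_right (N * q) q)) u = 1 → χ' u = 1)
    (c : Cocycle (scalarRep χ K))
    (h1 : ∀ k ∈ smallGroup (N * q) (N * q * q), ∀ k' : Gamma0 (N * q),
      twistMat q 1 * toGL (N * q) k = toGL (N * q) k' * twistMat q 1 → c.1 k' = c.1 k) :
    toCoh (scalarRep χ K) c = 0 := by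
  classical
  have : NeZero q := ⟨hqp.out.ne_zero⟩
  set H := smallGroup (N * q) (N * q * q)
  have : H.FiniteIndex := finiteIndex_smallGroup _ _ (dvd_mul_right _ q)
  have hχH : ∀ k ∈ H, χ (dUnit (N * q) k) = 1 := fun k hk => by rw [hk.2, map_one]
  have hq0 : q ≠ 0 := hqp.out.ne_zero
  -- conjugation by translations
  have hconj : ∀ (i : ℤ) (k : Gamma0 (N * q)), k ∈ H → ∃ k' : Gamma0 (N * q), k' ∈ H ∧
      twistMat q i * toGL (N * q) k = toGL (N * q) k' * twistMat q i := by
    intro i k hk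
    let k2 : Gamma0 (N * q * q) := ⟨(k : SL(2, ℤ)), (mem_Gamma0_iff_dvd _).mpr hk.1⟩
    have hd : ((((k : SL(2, ℤ)) 1 1 : ℤ)) : ZMod (N * q)) = 1 := by
      rw [← coe_dUnit, hk.2, Units.val_one]
    have hq' : (q : ℤ) ∣ i * (k2 : SL(2, ℤ)) 1 1 - (k2 : SL(2, ℤ)) 0 0 * i := by
      rw [← ZMod.intCast_zmod_eq_zero_iff_dvd]
      have h1 := congrArg (ZMod.castHom (dvd_mul_left q N) (ZMod q)) (gamma0_diag k)
      rw [map_mul, coe_dUnit, hd, map_one, mul_one, map_intCast] at h1
      have h2 := congrArg (ZMod.castHom (dvd_mul_left q N) (ZMod q)) hd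
      rw [map_intCast, map_one] at h2
      push_cast
      rw [h1, h2]
      ring
    obtain ⟨k', hk', hd', hc'⟩ :=
      exists_twistConj hq0 (dvd_mul_left q N) (dvd_refl _) k2 (b := i) (b' := i) hq'
    refine ⟨k', ⟨?_, ?_⟩, hk'⟩
    · rw [hc']
      exact hk.1
    · rw [hd']
      refine Units.ext ?_
      rw [ZMod.unitsMap_def, Units.coe_map, MonoidHom.coe_coe, coe_dUnit, map_intCast]
      exact hd
  choose R hRH hR using hconj
  have hR_unique : ∀ (i : ℤ) (k : Gamma0 (N * q)) (hk : k ∈ H) (k' : Gamma0 (N * q)),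
      twistMat q i * toGL (N * q) k = toGL (N * q) k' * twistMat q i → k' = R i k hk :=
    fun i k hk k' h => toGL_injective (mul_right_cancel (h.symm.trans (hR i k hk)))
  have hR_add : ∀ (i j : ℤ) (k : Gamma0 (N * q)) (hk : k ∈ H),
      R i (R j k hk) (hRH j k hk) = R (i + j) k hk := fun i j k hk => hR_unique _ _ _ _ (by
    rw [twistMat_add, mul_assoc, hR j k hk, ← mul_assoc, hR i _ (hRH j k hk), mul_assoc])
  -- conjugation by elements of `Γ₀(N q)`
  have hg_conj : ∀ (g k k' : Gamma0 (N * q)), k ∈ H → k' ∈ H → g * k = k' * g →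
      c.1 k' = χ (dUnit (N * q) g) * c.1 k := by
    intro g k k' hk hk' h
    have h1 := congrArg c.1 h
    rw [c.2.1, c.2.1, gammaRep_apply, gammaRep_apply, scalarRep_apply, scalarRep_apply,
      smul_eq_mul, smul_eq_mul, hχH k' hk', one_mul] at h1
    linear_combination -h1
  have hinv : ∀ (k : Gamma0 (N * q)) (hk : k ∈ H) (i : ℤ), c.1 (R i k hk) = c.1 k := by
    intro k hk i
    have hstep : ∀ j : ℤ, c.1 (R (1 + j) k hk) = c.1 (R j k hk) := fun j => by
      rw [← hR_add 1 j k hk]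
      exact h1 _ (hRH j k hk) _ (hR 1 _ (hRH j k hk))
    induction i using Int.induction_on with
    | zero =>
      refine congrArg c.1 (hR_unique 0 k hk k ?_).symm
      rw [twistMat_zero, one_mul, mul_one]
    | succ t ih => rw [add_comm, hstep, ih]
    | pred t ih =>
      rw [← ih, ← hstep (-(t : ℤ) - 1)]
      ring_nf
  -- an element with a non-trivial character value
  obtain ⟨w, hw⟩ : ∃ w : (ZMod q)ˣ, ψ w ^ 2 ≠ 1 := by
    by_contra h
    push Not at h
    exact hψ (MonoidHom.ext fun w => h w)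
  have hNq : (N : ZMod q) ≠ 0 := fun h => hqN ((ZMod.natCast_eq_zero_iff N q).mp h)
  set j : ℤ := ((((w : ZMod q) - 1) / N : ZMod q).val : ℤ)
  set D : ℤ := j * N + 1
  have hD : (D : ZMod q) = w := by
    simp only [D, j]
    push_cast
    rw [ZMod.natCast_zmod_val, div_mul_cancel₀ _ hNq, sub_add_cancel]
  set i : ℤ := (((-(w⁻¹ : (ZMod q)ˣ) : (ZMod q)ˣ) : ZMod q).val : ℤ)
  obtain ⟨n, hn⟩ : (q : ℤ) ∣ 1 + i * D := by
    rw [← ZMod.intCast_zmod_eq_zero_iff_dvd]
    have hiq : (i : ZMod q) = -(((w⁻¹ : (ZMod q)ˣ)) : ZMod q) := by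
      show ((((-(w⁻¹ : (ZMod q)ˣ) : (ZMod q)ˣ) : ZMod q).val : ℕ) : ℤ) = (_ : ZMod q)
      rw [Int.cast_natCast, ZMod.natCast_zmod_val, Units.val_neg]
    rw [Int.cast_add, Int.cast_one, Int.cast_mul, hD, hiq, neg_mul, Units.inv_mul, add_neg_cancel]
  set J : ℤ := j * (N * q)
  let γ : Gamma0 (N * q) := ⟨⟨!![1, 0; J, 1], by simp [Matrix.det_fin_two_of]⟩,
    (mem_Gamma0_iff_dvd _).mpr ⟨j, by simp [J]; ring⟩⟩
  let g : Gamma0 (N * q) := ⟨⟨!![1 + i * j * N, n; J, D], by
      rw [Matrix.det_fin_two_of]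
      simp only [J, D]
      simp only [D] at hn
      linear_combination (j * N) * hn⟩,
    (mem_Gamma0_iff_dvd _).mpr ⟨j, by simp [J]; ring⟩⟩
  have hg : toGL (N * q) g = twistMat q i * toGL (N * q) γ * twistMat q 1 := by
    refine Units.ext ?_
    have hq' : (q : ℝ) ≠ 0 := Nat.cast_ne_zero.mpr hq0
    have hn' : (1 : ℝ) + (i : ℝ) * ((j : ℝ) * N + 1) = q * n := by
      have := congrArg (Int.cast : ℤ → ℝ) hn
      simp only [D] at this
      push_cast at this
      exact this
    rw [Units.val_mul, Units.val_mul, val_twistMat, val_twistMat]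
    ext a b
    simp only [toGL_apply, Matrix.mul_apply, Fin.sum_univ_two, val_mapGL_apply]
    fin_cases a <;> fin_cases b <;> simp [g, γ, J, D] <;> field_simp
    all_goals first
      | ring1
      | linear_combination hn'
      | linear_combination -hn'
  have hgH : ∀ k (hk : k ∈ H), ∃ k', ∃ _ : k' ∈ H, γ * k = k' * γ ∧ c.1 k' = c.1 k := by
    intro k hk
    let k' : Gamma0 (N * q) := γ * k * γ⁻¹
    have hd : dUnit (N * q) γ = 1 := Units.ext (by rw [coe_dUnit]; simp [γ])
    have hk' : k' ∈ H := by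
      refine ⟨?_, by rw [map_mul, map_mul, map_inv, hd, hk.2, inv_one, one_mul, one_mul]⟩
      show ((N * q * q : ℕ) : ℤ) ∣ ((γ : SL(2, ℤ)) * (k : SL(2, ℤ)) * (γ : SL(2, ℤ))⁻¹) 1 0
      rw [Matrix.SpecialLinearGroup.coe_mul, Matrix.SpecialLinearGroup.coe_mul,
        Matrix.SpecialLinearGroup.coe_inv, Matrix.adjugate_fin_two]
      obtain ⟨C, hC⟩ := hk.1
      obtain ⟨t, ht⟩ : (q : ℤ) ∣ (k : SL(2, ℤ)) 0 0 - (k : SL(2, ℤ)) 1 1 := by
        rw [← ZMod.intCast_zmod_eq_zero_iff_dvd]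
        have h1 := congrArg (ZMod.castHom (dvd_mul_left q N) (ZMod q)) (gamma0_diag k)
        have h2 := congrArg (ZMod.castHom (dvd_mul_left q N) (ZMod q))
          (show ((((k : SL(2, ℤ)) 1 1 : ℤ)) : ZMod (N * q)) = 1 by
            rw [← coe_dUnit, hk.2, Units.val_one])
        rw [map_mul, coe_dUnit, map_intCast, map_intCast, map_one] at h1
        rw [map_intCast, map_one] at h2
        rw [h2, mul_one] at h1
        push_cast
        rw [h1, h2, sub_self]
      refine ⟨C + j * t - j * j * N * (k : SL(2, ℤ)) 0 1, ?_⟩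
      simp only [γ, Matrix.mul_apply, Fin.sum_univ_two]
      simp [J]
      push_cast at hC
      linear_combination hC + (j * ((N : ℤ) * q)) * ht
    refine ⟨k', hk', by simp [k'], ?_⟩
    rw [hg_conj γ k k' hk hk' (by simp [k']), hd, map_one, one_mul]
  have hgd : χ (dUnit (N * q) g) = ψ w ^ 2 := by
    have hunit : IsUnit ((D : ℤ) : ZMod (N * q * q)) := by
      have hcop : IsCoprime D ((N : ℤ) * q * q) := by
        have h1 : IsCoprime D (N : ℤ) := ⟨1, -j, by simp only [D]; ring⟩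
        have h2 : IsCoprime D (q : ℤ) := by
          rw [isCoprime_comm, (Nat.prime_iff_prime_int.mp hqp.out).coprime_iff_not_dvd]
          intro h
          rw [← ZMod.intCast_zmod_eq_zero_iff_dvd, hD] at h
          exact w.ne_zero h
        exact (h1.mul_right h2).mul_right h2
      obtain ⟨a, b, hab⟩ := hcop
      refine IsUnit.of_mul_eq_one (a : ZMod (N * q * q)) ?_
      have := congrArg (Int.cast : ℤ → ZMod (N * q * q)) hab
      push_cast at this
      have hz : (N : ZMod (N * q * q)) * q * q = 0 := by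
        have := ZMod.natCast_self (N * q * q)
        push_cast at this
        exact this
      rw [hz, mul_zero, add_zero] at this
      exact (mul_comm _ _).trans this
    have h1 : ZMod.unitsMap (dvd_mul_right (N * q) q) hunit.unit = dUnit (N * q) g := Units.ext (by
      rw [ZMod.unitsMap_def, Units.coe_map, MonoidHom.coe_coe, coe_dUnit, IsUnit.unit_spec,
        map_intCast]
      rfl)
    rw [← h1, show dvd_mul_right (N * q) q = dvd_of_mul_right_dvd (dvd_refl (N * q * q)) from rfl,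
      hχ, hχ', one_mul]
    · congr 2
      refine Units.ext ?_
      rw [ZMod.unitsMap_def, Units.coe_map, MonoidHom.coe_coe, IsUnit.unit_spec, map_intCast, hD]
    · refine Units.ext ?_
      rw [ZMod.unitsMap_def, Units.coe_map, MonoidHom.coe_coe, IsUnit.unit_spec, map_intCast,
        Units.val_one]
      simp [D]
  refine toCoh_eq_zero_of_subgroup c H fun k hk => ?_
  obtain ⟨k₂, hk₂, hk₂γ, hk₂c⟩ := hgH _ (hRH 1 k hk)
  have hgk : g * k = R i k₂ hk₂ * g := by
    refine toGL_injective ?_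
    rw [map_mul, map_mul, hg, mul_assoc _ (twistMat q 1), hR 1 k hk, ← mul_assoc,
      mul_assoc (twistMat q i), ← map_mul, hk₂γ, map_mul, ← mul_assoc, hR i k₂ hk₂]
    simp only [mul_assoc]
  have h := hg_conj g k _ hk (hRH i k₂ hk₂) hgk
  rw [hinv, hk₂c, hinv, hgd] at h
  by_contra hne
  exact hw (mul_right_cancel₀ hne (by rw [one_mul]; exact h.symm))

/-- **The twist is injective.** -/
theorem twist_injective [NeZero N] (hqN : ¬ q ∣ N) (hψ : ψ ^ 2 ≠ 1)
    (hχ' : ∀ u : (ZMod (N * q * q))ˣ,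
      ZMod.unitsMap ((dvd_mul_right N q).trans (dvd_mul_right (N * q) q)) u = 1 → χ' u = 1) :
    Function.Injective (twist K hχ) := by
  classical
  have : NeZero q := ⟨hqp.out.ne_zero⟩
  refine (injective_iff_map_eq_zero _).mpr fun u hu => ?_
  obtain ⟨c, rfl⟩ := toCoh_surjective _ u
  rw [twist_toCoh, toCoh_eq_zero_iff] at hu
  obtain ⟨a₀, ha₀⟩ := hu
  refine toCoh_eq_zero_of_translation hχ hqN hψ hχ' c fun k₀ hk₀ k₀' hk₀' => ?_
  set H := smallGroup (N * q) (N * q * q)
  have : H.FiniteIndex := finiteIndex_smallGroup _ _ (dvd_mul_right _ q)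
  have hχH : ∀ k ∈ H, χ (dUnit (N * q) k) = 1 := fun k hk => by rw [hk.2, map_one]
  have hq0 : q ≠ 0 := hqp.out.ne_zero
  -- conjugation by translations
  have hconj : ∀ (i : ℤ) (k : Gamma0 (N * q)), k ∈ H → ∃ k' : Gamma0 (N * q), k' ∈ H ∧
      twistMat q i * toGL (N * q) k = toGL (N * q) k' * twistMat q i := by
    intro i k hk
    let k2 : Gamma0 (N * q * q) := ⟨(k : SL(2, ℤ)), (mem_Gamma0_iff_dvd _).mpr hk.1⟩
    have hd : ((((k : SL(2, ℤ)) 1 1 : ℤ)) : ZMod (N * q)) = 1 := by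
      rw [← coe_dUnit, hk.2, Units.val_one]
    have hq' : (q : ℤ) ∣ i * (k2 : SL(2, ℤ)) 1 1 - (k2 : SL(2, ℤ)) 0 0 * i := by
      rw [← ZMod.intCast_zmod_eq_zero_iff_dvd]
      have h1 := congrArg (ZMod.castHom (dvd_mul_left q N) (ZMod q)) (gamma0_diag k)
      rw [map_mul, coe_dUnit, hd, map_one, mul_one, map_intCast] at h1
      have h2 := congrArg (ZMod.castHom (dvd_mul_left q N) (ZMod q)) hd
      rw [map_intCast, map_one] at h2
      push_cast
      rw [h1, h2]
      ring
    obtain ⟨k', hk', hd', hc'⟩ :=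
      exists_twistConj hq0 (dvd_mul_left q N) (dvd_refl _) k2 (b := i) (b' := i) hq'
    refine ⟨k', ⟨?_, ?_⟩, hk'⟩
    · rw [hc']
      exact hk.1
    · rw [hd']
      refine Units.ext ?_
      rw [ZMod.unitsMap_def, Units.coe_map, MonoidHom.coe_coe, coe_dUnit, map_intCast]
      exact hd
  choose R hRH hR using hconj
  have hR_unique : ∀ (i : ℤ) (k : Gamma0 (N * q)) (hk : k ∈ H) (k' : Gamma0 (N * q)),
      twistMat q i * toGL (N * q) k = toGL (N * q) k' * twistMat q i → k' = R i k hk :=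
    fun i k hk k' h => toGL_injective (mul_right_cancel (h.symm.trans (hR i k hk)))
  have hR_add : ∀ (i j : ℤ) (k : Gamma0 (N * q)) (hk : k ∈ H),
      R i (R j k hk) (hRH j k hk) = R (i + j) k hk := fun i j k hk => hR_unique _ _ _ _ (by
    rw [twistMat_add, mul_assoc, hR j k hk, ← mul_assoc, hR i _ (hRH j k hk), mul_assoc])
  -- conjugation by elements of `Γ₀(N q)`
  have hg_conj : ∀ (g k k' : Gamma0 (N * q)), k ∈ H → k' ∈ H → g * k = k' * g →
      c.1 k' = χ (dUnit (N * q) g) * c.1 k := by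
    intro g k k' hk hk' h
    have h1 := congrArg c.1 h
    rw [c.2.1, c.2.1, gammaRep_apply, gammaRep_apply, scalarRep_apply, scalarRep_apply,
      smul_eq_mul, smul_eq_mul, hχH k' hk', one_mul] at h1
    linear_combination -h1
  -- periodicity
  have hRq : ∀ (k : Gamma0 (N * q)) (hk : k ∈ H), c.1 (R q k hk) = c.1 k := by
    intro k hk
    let T : Gamma0 (N * q) := ⟨⟨!![1, 1; 0, 1], by simp [Matrix.det_fin_two_of]⟩,
      (mem_Gamma0_iff_dvd _).mpr (dvd_zero _)⟩
    have hT : toGL (N * q) T = twistMat q q := by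
      refine Units.ext ?_
      have : (q : ℝ) ≠ 0 := Nat.cast_ne_zero.mpr hq0
      ext i j
      rw [val_twistMat, toGL_apply, val_mapGL_apply]
      fin_cases i <;> fin_cases j <;> simp [T, this]
    have h := hR q k hk
    rw [← hT, ← map_mul, ← map_mul] at h
    rw [hg_conj T k _ hk (hRH q k hk) (toGL_injective h),
      show dUnit (N * q) T = 1 from Units.ext (by rw [coe_dUnit]; simp [T]), map_one, one_mul]
  have hper : ∀ (k : Gamma0 (N * q)) (hk : k ∈ H) (i j : ℤ), (i : ZMod q) = j →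
      c.1 (R i k hk) = c.1 (R j k hk) := by
    intro k hk i j hij
    obtain ⟨t, ht⟩ := (ZMod.intCast_eq_intCast_iff_dvd_sub i j q).mp hij
    obtain rfl : j = (q : ℤ) * t + i := by linarith
    suffices key : ∀ (t : ℤ), c.1 (R ((q : ℤ) * t + i) k hk) = c.1 (R i k hk) from (key t).symm
    intro t
    induction t using Int.induction_on with
    | zero => simp
    | succ t ih =>
      rw [show (q : ℤ) * ((t : ℤ) + 1) + i = q + (q * t + i) by ring, ← hR_add (q : ℤ) _ k hk,
        hRq, ih]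
    | pred t ih =>
      rw [← ih, show (q : ℤ) * -(t : ℤ) + i = q + (q * (-(t : ℤ) - 1) + i) by ring,
        ← hR_add (q : ℤ) _ k hk, hRq]
  -- the twisted sums vanish
  have hsum : ∀ (k : Gamma0 (N * q)) (hk : k ∈ H),
      ∑ b : (ZMod q)ˣ, ψ b * c.1 (R (twistVal b) k hk) = 0 := by
    intro k hk
    let k2 : Gamma0 (N * q * q) := ⟨(k : SL(2, ℤ)), (mem_Gamma0_iff_dvd _).mpr hk.1⟩
    have h := ha₀ k2
    have hd1 : ZMod.unitsMap (dvd_mul_right (N * q) q) (dUnit (N * q * q) k2) = 1 := by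
      rw [← hk.2]
      refine Units.ext ?_
      rw [ZMod.unitsMap_def, Units.coe_map, MonoidHom.coe_coe, coe_dUnit, coe_dUnit, map_intCast]
    have hd : χ' (dUnit (N * q * q) k2) = 1 := by
      refine hχ' _ ?_
      rw [show ((dvd_mul_right N q).trans (dvd_mul_right (N * q) q)) =
        (dvd_mul_right N q).trans (dvd_mul_right (N * q) q) from rfl,
        ← ZMod.unitsMap_comp (dvd_mul_right N q) (dvd_mul_right (N * q) q), MonoidHom.comp_apply,
        hd1, map_one]
    rw [scalarRep_apply, hd, one_smul, sub_self] at h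
    rw [← h]
    show _ = (twistData K hχ).raw c.1 k2
    rw [Data.raw_apply]
    refine Finset.sum_congr rfl fun b _ => ?_
    show _ = ψ b • c.1 _
    rw [smul_eq_mul]
    refine congrArg (ψ b * ·) (congrArg c.1 ?_)
    exact ((twistData K hχ).spec_unique toGL_injective (x := b) (y := b) (γ := k2)
      (hR (twistVal b) k hk)).2.symm
  have hψ1 : ψ ≠ 1 := fun h => hψ (by rw [h, one_pow])
  have hinv : ∀ (k : Gamma0 (N * q)) (hk : k ∈ H) (i : ℤ), c.1 (R i k hk) = c.1 k := by
    intro k hk i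
    have hz := eq_of_twisted_sum_eq_zero hψ1 (fun z : ZMod q => c.1 (R (z.val : ℤ) k hk))
      (fun y => by
        rw [← hsum _ (hRH (y.val : ℤ) k hk)]
        refine Finset.sum_congr rfl fun b _ => congrArg _ ?_
        rw [hR_add]
        refine hper k hk _ _ ?_
        push_cast [twistVal_cast]
        simp) (i : ZMod q) 0
    simp only [ZMod.val_zero, Nat.cast_zero] at hz
    rw [hper k hk i (((i : ZMod q).val : ℤ)) (by simp), hz]
    refine congrArg c.1 (hR_unique 0 k hk k ?_).symm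
    rw [twistMat_zero, one_mul, mul_one]
  rw [hR_unique 1 k₀ hk₀ k₀' hk₀']
  exact hinv k₀ hk₀ 1

end Fermat.Agent.EigenSystems
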