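import Fermat.Agent.EigenSystems.Basic
import Fermat.Agent.EichlerShimura.Facts

/-!
# Eigen classes are parabolic

Eigen classes with a non-Eisenstein eigenvalue at some prime `ℓ ≡ 1 (mod N)` vanish on the parabolic
elements of `Γ(N)`.
-/

set_option autoImplicit false

open CongruenceSubgroup Matrix.SpecialLinearGroup
open scoped MatrixGroups OnePoint

universe uO uA

namespace Fermat.Agent.EigenSystems

open HeckeJ0 HeckeModule

variable {N : ℕ}

/-- `1 + t N (-uv, u²; -v², uv)`, a parabolic element of `Γ(N)` fixing `u / v`. -/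
def parElt (N : ℕ) (u v t : ℤ) : Gamma0 N :=
  ⟨⟨!![1 - t * N * u * v, t * N * u ^ 2; -(t * N * v ^ 2), 1 + t * N * u * v], by
      rw [Matrix.det_fin_two_of]; ring⟩,
    (mem_Gamma0_iff_dvd _).mpr ⟨-(t * v ^ 2), by
      show -(t * N * v ^ 2) = _
      ring⟩⟩

lemma dUnit_parElt (u v t : ℤ) : dUnit N (parElt N u v t) = 1 := Units.ext (by
  rw [coe_dUnit, Units.val_one]
  show ((1 + t * N * u * v : ℤ) : ZMod N) = 1
  simp)

lemma parElt_add (u v s t : ℤ) : parElt N u v (s + t) = parElt N u v s * parElt N u v t := by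
  refine Subtype.ext (Matrix.SpecialLinearGroup.ext _ _ fun i j => ?_)
  rw [Subgroup.coe_mul, Matrix.SpecialLinearGroup.coe_mul]
  fin_cases i <;> fin_cases j <;> simp [parElt, Matrix.mul_apply, Fin.sum_univ_two] <;> ring

lemma parElt_scale (u v g t : ℤ) : parElt N (g * u) (g * v) t = parElt N u v (g ^ 2 * t) := by
  refine Subtype.ext (Matrix.SpecialLinearGroup.ext _ _ fun i j => ?_)
  fin_cases i <;> fin_cases j <;> simp [parElt] <;> ring

/-- Conjugation of `parElt`. -/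
lemma mul_parElt (γ : Gamma0 N) {u v u' v' : ℤ}
    (hu : u' = (γ : SL(2, ℤ)) 0 0 * u + (γ : SL(2, ℤ)) 0 1 * v)
    (hv : v' = (γ : SL(2, ℤ)) 1 0 * u + (γ : SL(2, ℤ)) 1 1 * v) (t : ℤ) :
    γ * parElt N u v t = parElt N u' v' t * γ := by
  have hdet := (γ : SL(2, ℤ)).det_coe
  rw [Matrix.det_fin_two] at hdet
  subst hu hv
  refine Subtype.ext (Matrix.SpecialLinearGroup.ext _ _ fun i j => ?_)
  rw [Subgroup.coe_mul, Subgroup.coe_mul, Matrix.SpecialLinearGroup.coe_mul,
    Matrix.SpecialLinearGroup.coe_mul]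
  fin_cases i <;> fin_cases j <;> simp [parElt, Matrix.mul_apply, Fin.sum_univ_two]
  · linear_combination
      (-(t * N) * v * ((γ : SL(2, ℤ)) 0 1 * v + (γ : SL(2, ℤ)) 0 0 * u)) * (-hdet)
  · linear_combination
      (t * N * u * ((γ : SL(2, ℤ)) 0 1 * v + (γ : SL(2, ℤ)) 0 0 * u)) * (-hdet)
  · linear_combination
      (-(t * N) * v * ((γ : SL(2, ℤ)) 1 1 * v + (γ : SL(2, ℤ)) 1 0 * u)) * (-hdet)
  · linear_combination
      (t * N * u * ((γ : SL(2, ℤ)) 1 1 * v + (γ : SL(2, ℤ)) 1 0 * u)) * (-hdet)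

/-- Congruent primitive vectors differ by an element with `d ≡ 1`. -/
lemma exists_move {u v u' v' : ℤ} (h : IsCoprime u v) (h' : IsCoprime u' v')
    (hu : (u' : ZMod N) = u) (hv : (v' : ZMod N) = v) :
    ∃ γ : Gamma0 N, dUnit N γ = 1 ∧ u' = (γ : SL(2, ℤ)) 0 0 * u + (γ : SL(2, ℤ)) 0 1 * v ∧
      v' = (γ : SL(2, ℤ)) 1 0 * u + (γ : SL(2, ℤ)) 1 1 * v := by
  obtain ⟨r, s, hrs⟩ := h
  obtain ⟨r', s', hrs'⟩ := h'
  -- `r u + s v = 1`; the bases are `(u, -s; v, r)` and `(u', -s'; v', r')`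
  set k : ℤ := r' * (-s) - (-s') * r with hk
  have h1 : (r : ZMod N) * u + (s : ZMod N) * v = 1 := by exact_mod_cast congrArg (Int.cast : ℤ → ZMod N) hrs
  have h2 : (r' : ZMod N) * u + (s' : ZMod N) * v = 1 := by
    have := congrArg (Int.cast : ℤ → ZMod N) hrs'
    push_cast at this
    rwa [hu, hv] at this
  let g : SL(2, ℤ) := ⟨!![u' * r - (u' * k - s') * v, u' * s + (u' * k - s') * u;
    v' * r - (v' * k + r') * v, v' * s + (v' * k + r') * u], by
      rw [Matrix.det_fin_two_of]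
      linear_combination (r * u + s * v) * hrs' + hrs⟩
  refine ⟨⟨g, ?_⟩, Units.ext ?_, ?_, ?_⟩
  · rw [Gamma0_mem]
    show ((v' * r - (v' * k + r') * v : ℤ) : ZMod N) = 0
    rw [hk]; push_cast; rw [hv]
    linear_combination (v : ZMod N) * (r' : ZMod N) * h1 - (v : ZMod N) * (r : ZMod N) * h2
  · rw [coe_dUnit, Units.val_one]
    show ((v' * s + (v' * k + r') * u : ℤ) : ZMod N) = 1
    rw [hk]; push_cast; rw [hv]
    linear_combination (-(r' : ZMod N) * u + 1) * h1 + (r : ZMod N) * u * h2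
  · show u' = (u' * r - (u' * k - s') * v) * u + (u' * s + (u' * k - s') * u) * v
    linear_combination -u' * hrs
  · show v' = (v' * r - (v' * k + r') * v) * u + (v' * s + (v' * k + r') * u) * v
    linear_combination -v' * hrs

variable {O : Type uO} [CommRing O] {A : Type uA} [AddCommGroup A] [Module O A]
  {ρ : Representation O (ZMod N)ˣ A}

lemma gammaRep_parElt (u v t : ℤ) : gammaRep ρ (parElt N u v t) = 1 := by
  rw [gammaRep_apply, dUnit_parElt, map_one]

/-- A cocycle on the powers of a parabolic element. -/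
def parHom (c : Cocycle ρ) (u v : ℤ) : ℤ →+ A :=
  AddMonoidHom.mk' (fun t => c.1 (parElt N u v t)) fun s t => by
    rw [parElt_add, c.2.1, gammaRep_parElt, Module.End.one_apply]

lemma parElt_apply_eq_zsmul (c : Cocycle ρ) (u v t : ℤ) :
    c.1 (parElt N u v t) = t • c.1 (parElt N u v 1) := by
  have h := map_zsmul (parHom c u v) t 1
  rw [smul_eq_mul, mul_one] at h
  exact h

lemma apply_parElt_move (c : Cocycle ρ) (γ : Gamma0 N) (hγ : dUnit N γ = 1) {u v u' v' : ℤ}
    (hu : u' = (γ : SL(2, ℤ)) 0 0 * u + (γ : SL(2, ℤ)) 0 1 * v)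
    (hv : v' = (γ : SL(2, ℤ)) 1 0 * u + (γ : SL(2, ℤ)) 1 1 * v) :
    c.1 (parElt N u' v' 1) = c.1 (parElt N u v 1) := by
  have h := congrArg c.1 (mul_parElt γ hu hv 1)
  rw [c.2.1, c.2.1, gammaRep_parElt, gammaRep_apply, hγ, map_one, Module.End.one_apply,
    Module.End.one_apply, add_comm, add_left_inj] at h
  exact h.symm

variable {ℓ : ℕ} [Fact ℓ.Prime] [NeZero ℓ]

omit [Fact (Nat.Prime ℓ)] [NeZero ℓ] in
/-- The transfer of a parabolic element by a Hecke representative. -/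
lemma rep_mul_parElt {x : Idx N ℓ} {a b d : ℕ} (hx : IsTri (rep x) a b d) (had : a * d = ℓ)
    (u v : ℤ) :
    rep x * toGL N (parElt N u v ℓ) = toGL N (parElt N (a * u + b * v) (d * v) 1) * rep x := by
  have had' : (a : ℝ) * d = ℓ := by exact_mod_cast had
  unfold IsTri at hx
  refine Units.ext ?_
  rw [Units.val_mul, Units.val_mul, hx]
  ext i j
  simp only [Matrix.mul_apply, Fin.sum_univ_two, toGL_apply, val_mapGL_apply]
  fin_cases i <;> fin_cases j <;> simp [parElt]
  · linear_combination ((N : ℝ) * v * ((a : ℝ) * u + b * v)) * had'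
  · linear_combination (-(N : ℝ) * u * ((a : ℝ) * u + b * v)) * had'
  · linear_combination (-(N : ℝ) * d * v ^ 2) * had'
  · linear_combination (-(N : ℝ) * d * u * v) * had'

/-- The boundary values are multiplied by `ℓ + 1` when `ℓ ≡ 1 (mod N)`. -/
theorem boundary_hecke (hℓ : (ℓ : ZMod N) = 1) (c : Cocycle ρ) {u v : ℤ} (huv : IsCoprime u v) :
    (ℓ : ℤ) • ((heckeData ρ ℓ).raw c.1 (parElt N u v 1) - ((ℓ : ℤ) + 1) • c.1 (parElt N u v 1))
      = 0 := by
  classical
  have hℓp : ℓ.Prime := Fact.out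
  have hℓN := not_dvd_of_natCast_eq_one (N := N) hℓ
  set P := c.1 (parElt N u v 1)
  -- the exceptional index
  obtain ⟨j₀, hj₀⟩ : ∃ j₀ : OnePoint (ZMod ℓ), ∀ (x : OnePoint (ZMod ℓ)),
      (x = ∞ → ((v : ZMod ℓ) = 0 ↔ x = j₀)) ∧
      ∀ j : ZMod ℓ, x = j → ((u : ZMod ℓ) + j * v = 0 ↔ x = j₀) := by
    by_cases hv : (v : ZMod ℓ) = 0
    · refine ⟨∞, fun x => ⟨fun h => iff_of_true hv h, fun j hj => iff_of_false ?_ ?_⟩⟩
      · rw [hv, mul_zero, add_zero]
        intro hu
        obtain ⟨r, s, hrs⟩ := huv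
        have := congrArg (Int.cast : ℤ → ZMod ℓ) hrs
        push_cast at this
        rw [hu, hv] at this
        simp at this
      · rw [hj]; exact OnePoint.coe_ne_infty j
    · refine ⟨((-(u : ZMod ℓ) / v : ZMod ℓ) : OnePoint (ZMod ℓ)), fun x => ⟨fun h => ?_, fun j hj => ?_⟩⟩
      · exact iff_of_false hv (by rw [h]; exact (OnePoint.coe_ne_infty _).symm)
      · rw [hj, OnePoint.coe_eq_coe, eq_div_iff hv]
        exact ⟨fun h => by linear_combination h, fun h => by linear_combination h⟩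
  have hterm : ∀ x : Idx N ℓ, (heckeData ρ ℓ).ε x (c.1 ((heckeData ρ ℓ).tr x (parElt N u v ℓ)))
      = (if x.1 = j₀ then (ℓ : ℤ) ^ 2 else 1) • P := by
    intro x
    show ρ (aUnit x) _ = _
    rw [aUnit_eq_one hℓ, map_one, Module.End.one_apply]
    obtain ⟨a, b, d, hx, had, hiff, hcong⟩ : ∃ a b d : ℕ, IsTri (rep x) a b d ∧ a * d = ℓ ∧
        (((a : ZMod ℓ) * u + b * v = 0 ∧ (d : ZMod ℓ) * v = 0) ↔ x.1 = j₀) ∧
        (a : ZMod N) = 1 ∧ (d : ZMod N) = 1 := by
      rcases rep_cases x with ⟨j, hj, h⟩ | ⟨hj, -, h⟩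
      · refine ⟨_, _, _, h, one_mul _, ?_, Nat.cast_one, hℓ⟩
        rw [Nat.cast_one, one_mul, ZMod.natCast_val, ZMod.cast_id, ZMod.natCast_self, zero_mul,
          eq_self_iff_true, and_true]
        exact (hj₀ x.1).2 j hj
      · refine ⟨_, _, _, h, mul_one _, ?_, hℓ, Nat.cast_one⟩
        rw [Nat.cast_zero, zero_mul, add_zero, ZMod.natCast_self, zero_mul, eq_self_iff_true,
          true_and, Nat.cast_one, one_mul]
        exact (hj₀ x.1).1 hj
    rw [((heckeData ρ ℓ).spec_unique toGL_injective (x := x) (y := x)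
      (rep_mul_parElt hx had u v)).2]
    set U : ℤ := a * u + b * v
    set V : ℤ := d * v
    obtain ⟨r, s, hrs⟩ := huv
    have hg : ∀ g : ℤ, g ∣ U → g ∣ V → g ∣ ℓ := by
      intro g hgU hgV
      have hℤ : (a : ℤ) * d = ℓ := by exact_mod_cast had
      have h1 : g ∣ (ℓ : ℤ) * u := by
        have := dvd_sub (hgU.mul_left (d : ℤ)) (hgV.mul_left (b : ℤ))
        rwa [show (d : ℤ) * U - b * V = ℓ * u by rw [← hℤ]; simp only [U, V]; ring] at this
      have h2 : g ∣ (ℓ : ℤ) * v := by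
        have := hgV.mul_left (a : ℤ)
        rwa [show (a : ℤ) * V = ℓ * v by rw [← hℤ]; simp only [V]; ring] at this
      have := dvd_add (h1.mul_left r) (h2.mul_left s)
      rwa [show r * ((ℓ : ℤ) * u) + s * ((ℓ : ℤ) * v) = ℓ by
        linear_combination (ℓ : ℤ) * hrs] at this
    have hUV : Int.gcd U V ∣ ℓ :=
      Int.natCast_dvd_natCast.mp (hg _ (Int.gcd_dvd_left _ _) (Int.gcd_dvd_right _ _))
    have hgpos : 0 < Int.gcd U V := Nat.pos_of_dvd_of_pos hUV hℓp.pos
    obtain ⟨U', V', hcop, hU', hV'⟩ := Int.exists_gcd_one hgpos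
    have hgN : ((Int.gcd U V : ℕ) : ZMod N) = 1 := by
      rcases (Nat.dvd_prime hℓp).mp hUV with h | h <;> simp [h, hℓ]
    have hgval : ((Int.gcd U V : ℕ) : ℤ) ^ 2 = if x.1 = j₀ then (ℓ : ℤ) ^ 2 else 1 := by
      have hdiv : x.1 = j₀ ↔ (ℓ : ℕ) ∣ Int.gcd U V := by
        rw [← hiff, ← Int.natCast_dvd_natCast, Int.dvd_coe_gcd_iff,
          ← ZMod.intCast_zmod_eq_zero_iff_dvd, ← ZMod.intCast_zmod_eq_zero_iff_dvd]
        simp only [U, V]
        push_cast
        rfl
      split_ifs with h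
      · rw [Nat.dvd_antisymm hUV (hdiv.mp h)]
      · rcases (Nat.dvd_prime hℓp).mp hUV with h' | h'
        · simp [h']
        · exact absurd (hdiv.mpr (h' ▸ dvd_rfl)) h
    rw [show parElt N U V 1 = parElt N ((Int.gcd U V : ℤ) * U') ((Int.gcd U V : ℤ) * V') 1 by
        rw [mul_comm _ U', mul_comm _ V', ← hU', ← hV'],
      parElt_scale, mul_one, parElt_apply_eq_zsmul, hgval]
    congr 1
    -- the primitive vector is congruent to `(u + b v, v)`
    let T : Gamma0 N := ⟨⟨!![1, (b : ℤ); 0, 1], by simp [Matrix.det_fin_two_of]⟩,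
      (mem_Gamma0_iff_dvd _).mpr (by simp)⟩
    have hTd : dUnit N T = 1 := Units.ext (by rw [coe_dUnit]; simp [T])
    have hP : P = c.1 (parElt N (u + b * v) v 1) :=
      (apply_parElt_move c T hTd (by simp [T]) (by simp [T])).symm
    rw [hP]
    have hcop' : IsCoprime (u + b * v) v := by
      refine ⟨r, s - r * b, ?_⟩
      linear_combination hrs
    obtain ⟨γ, hγ, h1, h2⟩ := exists_move hcop' (Int.isCoprime_iff_gcd_eq_one.mpr hcop) (N := N)
      (u' := U') (v' := V') (by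
        have := congrArg (Int.cast : ℤ → ZMod N) hU'
        simp only [U] at this
        push_cast at this
        rw [hgN, mul_one, hcong.1, one_mul] at this
        push_cast
        exact this.symm) (by
        have := congrArg (Int.cast : ℤ → ZMod N) hV'
        simp only [V] at this
        push_cast at this
        rw [hgN, mul_one, hcong.2, one_mul] at this
        exact this.symm)
    exact apply_parElt_move c γ hγ h1 h2
  have hsum : (heckeData ρ ℓ).raw c.1 (parElt N u v ℓ) = ((ℓ : ℤ) ^ 2 + ℓ) • P := by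
    rw [Data.raw_apply, Finset.sum_congr rfl fun x _ => hterm x, ← Finset.sum_smul]
    congr 1
    let x₀ : Idx N ℓ := ⟨j₀, fun h => absurd h hℓN⟩
    have hite : ∀ y : Idx N ℓ, (if y.1 = j₀ then (ℓ : ℤ) ^ 2 else 1)
        = 1 + if y = x₀ then (ℓ : ℤ) ^ 2 - 1 else 0 := by
      intro y
      by_cases hy : y = x₀
      · rw [if_pos hy, if_pos (congrArg Subtype.val hy)]
        ring
      · rw [if_neg hy, if_neg fun h => hy (Subtype.ext h), add_zero]
    rw [Finset.sum_congr rfl fun y _ => hite y, Finset.sum_add_distrib,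
      Finset.sum_ite_eq', if_pos (Finset.mem_univ _), Finset.sum_const, Finset.card_univ,
      card_idx hℓN, nsmul_one]
    push_cast
    ring
  have hlin := parElt_apply_eq_zsmul ((heckeData ρ ℓ).onCocycles toGL_injective c) u v ℓ
  change (heckeData ρ ℓ).raw c.1 (parElt N u v ℓ) = _ at hlin
  rw [hsum] at hlin
  rw [smul_sub, smul_smul, sub_eq_zero, show (ℓ : ℤ) * ((ℓ : ℤ) + 1) = (ℓ : ℤ) ^ 2 + ℓ by ring]
  exact hlin.symm

omit [Fact ℓ.Prime] [NeZero ℓ] in
/-- A non-Eisenstein eigen class vanishes on the parabolic elements of `Γ(N)`. -/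
theorem apply_parElt_eq_zero [Module.IsTorsionFree ℤ A] {S : Finset ℕ} {lam : ℕ → O}
    (hreg : ∀ t : O, t ≠ 0 → ∀ a : A, t • a = 0 → a = 0) {c : Cocycle ρ}
    (hc : IsEigen ρ S lam (toCoh ρ c)) (hne : NonEisensteinSystem N S lam) {u v : ℤ}
    (huv : IsCoprime u v) : c.1 (parElt N u v 1) = 0 := by
  obtain ⟨ℓ, hℓ, hℓS, hℓN, hlam⟩ := hne
  have : Fact ℓ.Prime := ⟨hℓ⟩
  have : NeZero ℓ := ⟨hℓ.ne_zero⟩
  have h := hc ℓ hℓS (not_dvd_of_natCast_eq_one hℓN)
  rw [heckeOp_toCoh, ← map_smul] at h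
  obtain ⟨a, ha⟩ := (cls_eq_cls_iff _ _).mp h
  have hpar := ha (parElt N u v 1)
  rw [gammaRep_parElt, Module.End.one_apply, sub_self, sub_eq_zero] at hpar
  have hb := boundary_hecke hℓN c huv
  rw [show (heckeData ρ ℓ).raw c.1 (parElt N u v 1) = lam ℓ • c.1 (parElt N u v 1) from hpar,
    ← Int.cast_smul_eq_zsmul O ((ℓ : ℤ) + 1), ← sub_smul, Int.cast_add, Int.cast_natCast,
    Int.cast_one] at hb
  refine hreg _ (sub_ne_zero.mpr hlam) _ ?_
  exact (smul_eq_zero.mp hb).resolve_left (by exact_mod_cast hℓ.ne_zero)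

omit [Fact ℓ.Prime] [NeZero ℓ] in
/-- A homomorphism killing these parabolic elements is parabolic. -/
theorem isParabolicHom_homOf [NeZero N] [Module.IsTorsionFree ℤ A] (hρ : ∀ u, ρ u = 1)
    {c : Cocycle ρ} (h : ∀ u v : ℤ, IsCoprime u v → c.1 (parElt N u v 1) = 0) :
    ModularCurve.Period.IsParabolicHom (Gamma0 N) (homOf hρ c) := by
  intro γ hγ
  obtain ⟨δ, m, hm⟩ := EichlerShimura.exists_conj_T_of_trace_sq_eq_four (γ : SL(2, ℤ)) hγ
  have hpow : γ ^ (2 * N) = parElt N (δ 0 0) (δ 1 0) (2 * m) := by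
    refine Subtype.ext ?_
    rw [SubmonoidClass.coe_pow]
    have : (γ : SL(2, ℤ)) ^ (2 * N) = δ * ModularGroup.T ^ (2 * m * N) * δ⁻¹ := by
      have e : (δ * ModularGroup.T ^ m * δ⁻¹) ^ (2 * N)
          = δ * ModularGroup.T ^ (2 * m * N) * δ⁻¹ := by
        rw [conj_pow, ← zpow_natCast, ← zpow_mul]
        congr 3
        push_cast
        ring
      rcases hm with h' | h' <;> rw [h']
      · exact e
      · rw [pow_mul, neg_sq, ← pow_mul]
        exact e
    rw [this]
    refine Matrix.SpecialLinearGroup.ext _ _ fun i j => ?_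
    have hdet := δ.det_coe
    rw [Matrix.det_fin_two] at hdet
    rw [Matrix.SpecialLinearGroup.coe_mul, Matrix.SpecialLinearGroup.coe_mul, ModularGroup.coe_T_zpow,
      Matrix.SpecialLinearGroup.coe_inv, Matrix.adjugate_fin_two]
    fin_cases i <;> fin_cases j <;> simp [parElt, Matrix.mul_apply, Fin.sum_univ_two] <;>
      first
        | ring1
        | linear_combination hdet
  have h0 : c.1 (parElt N (δ 0 0) (δ 1 0) 1) = 0 := by
    refine h _ _ ⟨δ 1 1, -δ 0 1, ?_⟩
    have hdet := δ.det_coe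
    rw [Matrix.det_fin_two] at hdet
    linear_combination hdet
  rw [homOf_apply]
  have h1 := cocycle_pow hρ c γ (2 * N)
  rw [hpow, parElt_apply_eq_zsmul, h0, smul_zero, ← natCast_zsmul] at h1
  exact (smul_eq_zero.mp h1.symm).resolve_left (by
    have := NeZero.ne N
    push_cast
    omega)

end Fermat.Agent.EigenSystems
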