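import Fermat.Agent.HeckeModule.Localize

/-!
# Eigen systems in `H¹(Γ₀(N))`

Eigen systems in `H¹(Γ₀(N), A)`: definitions, trivial coefficients and change of coefficients along
additive maps.
-/

set_option autoImplicit false

open CongruenceSubgroup Matrix.SpecialLinearGroup
open scoped MatrixGroups

universe uO uA uB uR

namespace Fermat.Agent.EigenSystems

open HeckeJ0 HeckeModule

variable {N : ℕ} {O : Type uO} [CommRing O] {A : Type uA} [AddCommGroup A] [Module O A]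
  {R : Type uR} [CommRing R] {B : Type uB} [AddCommGroup B] [Module R B]

/-- `c` has eigenvalue `lam ℓ` for the operators at the primes outside `S` and prime to the level. -/
def IsEigen (ρ : Representation O (ZMod N)ˣ A) (S : Finset ℕ) (lam : ℕ → O) (c : Coh1 ρ) : Prop :=
  ∀ (ℓ : ℕ) [Fact ℓ.Prime], ℓ ∉ S → ¬ ℓ ∣ N → heckeOp ρ ℓ c = lam ℓ • c

/-- Some prime `ℓ ≡ 1 (mod N)` outside `S` has eigenvalue different from `ℓ + 1`. -/
def NonEisensteinSystem (N : ℕ) (S : Finset ℕ) (lam : ℕ → O) : Prop :=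
  ∃ ℓ : ℕ, ℓ.Prime ∧ ℓ ∉ S ∧ (ℓ : ZMod N) = 1 ∧ lam ℓ ≠ (ℓ : O) + 1

lemma scalarRep_one (u : (ZMod N)ˣ) : scalarRep (1 : (ZMod N)ˣ →* O) A u = 1 :=
  LinearMap.ext fun a => by rw [scalarRep_apply, MonoidHom.one_apply, one_smul]; rfl

section Trivial

variable {ρ : Representation O (ZMod N)ˣ A} (hρ : ∀ u, ρ u = 1)
include hρ

lemma cocycle_mul (c : Cocycle ρ) (γ δ : Gamma0 N) : c.1 (γ * δ) = c.1 γ + c.1 δ := by
  rw [c.2.1, gammaRep_apply, hρ, Module.End.one_apply]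

/-- A cocycle with trivial coefficients as a homomorphism. -/
def homOf (c : Cocycle ρ) : Additive (Gamma0 N) →+ A :=
  AddMonoidHom.mk' (fun γ => c.1 (Additive.toMul γ)) fun _ _ => cocycle_mul hρ c _ _

lemma homOf_apply (c : Cocycle ρ) (γ : Gamma0 N) : homOf hρ c (Additive.ofMul γ) = c.1 γ := rfl

lemma cocycle_pow (c : Cocycle ρ) (γ : Gamma0 N) (n : ℕ) : c.1 (γ ^ n) = n • c.1 γ := by
  rw [← homOf_apply hρ, ← homOf_apply hρ, ofMul_pow, map_nsmul]

lemma toCoh_eq_zero_iff_of_trivial {c : Cocycle ρ} : toCoh ρ c = 0 ↔ c = 0 := by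
  refine ⟨fun h => Subtype.ext (funext fun γ => ?_), fun h => by rw [h, map_zero]⟩
  obtain ⟨a, ha⟩ := (toCoh_eq_zero_iff c).mp h
  rw [ha, hρ, Module.End.one_apply, sub_self]
  rfl

lemma toCoh_injective : Function.Injective (toCoh ρ) :=
  (injective_iff_map_eq_zero _).mpr fun _ hc => (toCoh_eq_zero_iff_of_trivial hρ).mp hc

variable {ℓ : ℕ} [Fact ℓ.Prime] [NeZero ℓ]

lemma raw_apply_trivial (c : Gamma0 N → A) (γ : Gamma0 N) :
    (heckeData ρ ℓ).raw c γ = ∑ x, c ((heckeData ρ ℓ).tr x γ) := by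
  rw [Data.raw_apply]
  refine Finset.sum_congr rfl fun x _ => ?_
  show ρ (aUnit x) _ = _
  rw [hρ, Module.End.one_apply]

lemma raw_eq_of_eigen {c : Cocycle ρ} {t : O}
    (h : heckeOp ρ ℓ (toCoh ρ c) = t • toCoh ρ c) : (heckeData ρ ℓ).raw c.1 = t • c.1 := by
  rw [heckeOp_toCoh, ← map_smul] at h
  exact congrArg Subtype.val (toCoh_injective hρ h)

omit [Fact ℓ.Prime] [NeZero ℓ] in
/-- Change of coefficients along an additive map. -/
def mapCocycle {σ : Representation R (ZMod N)ˣ B} (hσ : ∀ u, σ u = 1) (f : A →+ B)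
    (c : Cocycle ρ) : Cocycle σ :=
  ⟨fun γ => f (c.1 γ), fun g h => by
    show f (c.1 (g * h)) = f (c.1 g) + gammaRep σ g (f (c.1 h))
    rw [cocycle_mul hρ, map_add, gammaRep_apply, hσ, Module.End.one_apply],
    fun k hk => by show f (c.1 k) = 0; rw [c.2.2 k hk, map_zero]⟩

lemma mapCocycle_hecke {σ : Representation R (ZMod N)ˣ B} (hσ : ∀ u, σ u = 1) (f : A →+ B)
    (c : Cocycle ρ) :
    mapCocycle hρ hσ f ((heckeData ρ ℓ).onCocycles toGL_injective c)
      = (heckeData σ ℓ).onCocycles toGL_injective (mapCocycle hρ hσ f c) := by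
  refine Subtype.ext (funext fun γ => ?_)
  show f ((heckeData ρ ℓ).raw c.1 γ) = (heckeData σ ℓ).raw (fun δ => f (c.1 δ)) γ
  rw [raw_apply_trivial hρ, raw_apply_trivial hσ, map_sum]
  refine Finset.sum_congr rfl fun x _ => congrArg (fun g => f (c.1 g)) ?_
  exact ((heckeData σ ℓ).spec_unique toGL_injective ((heckeData ρ ℓ).mul_spec x γ)).2.symm

/-- An additive map which is semilinear on the eigenvalue maps eigen classes to eigen classes. -/
lemma mapCocycle_eigen {σ : Representation R (ZMod N)ˣ B} (hσ : ∀ u, σ u = 1) (f : A →+ B)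
    {c : Cocycle ρ} {t : O} {t' : R} (h : heckeOp ρ ℓ (toCoh ρ c) = t • toCoh ρ c)
    (hf : ∀ γ, f (t • c.1 γ) = t' • f (c.1 γ)) :
    heckeOp σ ℓ (toCoh σ (mapCocycle hρ hσ f c)) = t' • toCoh σ (mapCocycle hρ hσ f c) := by
  rw [heckeOp_toCoh, ← mapCocycle_hecke hρ hσ, ← map_smul]
  refine congrArg _ (Subtype.ext (funext fun γ => ?_))
  show f ((heckeData ρ ℓ).raw c.1 γ) = t' • f (c.1 γ)
  rw [raw_eq_of_eigen hρ h, ← hf]
  rfl

end Trivial

end Fermat.Agent.EigenSystems
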