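import Fermat.Agent.Engine.TRep.Compare
import Fermat.Agent.Engine.TSide
import Fermat.Agent.XHLite.TwistClass.Fricke
import Fermat.Agent.EigenSystems.Basic

/-!
# Points of the Hecke algebra give eigen systems

An eigenvector of the Hecke matrices gives an occurring system, and a character of the Hecke
algebra of the lattice `O^d` has an eigenvector.
-/

set_option autoImplicit false

noncomputable section

open CongruenceSubgroup Matrix
open scoped MatrixGroups

namespace Fermat.Agent.EigenSystems

open HeckeModule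

variable {N : ℕ} [NeZero N] {K : Type} [Field K] [CharZero K]

/-- An eigenvector of the integral Hecke matrices is an eigen class. -/
theorem occurs_of_mulVec {S : Finset ℕ} {lam : ℕ → K} {v : Fin (HeckeJ0.rk N) → K} (hv0 : v ≠ 0)
    (hv : ∀ ℓ : Nat.Primes, (ℓ : ℕ) ∉ S → ¬ (ℓ : ℕ) ∣ N →
      ((HeckeJ0.heckeMatAt N ℓ).map (Int.cast : ℤ → K)) *ᵥ v = lam ℓ • v) :
    Engine.Occurs K N 1 S lam := by
  classical
  set ψ := HeckeJ0.ofCoords N v with hψ
  have hgood : HeckeJ0.IsGoodHom N ψ := HeckeJ0.isGoodHom_ofCoords N v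
  let c : Cocycle (scalarRep (1 : (ZMod N)ˣ →* K) K) := ⟨fun γ => ψ (Additive.ofMul γ), fun g h => by
      show ψ (Additive.ofMul (g * h)) = ψ (Additive.ofMul g) + gammaRep _ g (ψ (Additive.ofMul h))
      rw [ofMul_mul, map_add, gammaRep_apply, scalarRep_one, Module.End.one_apply],
    fun k hk => by
      rw [Set.mem_singleton_iff] at hk
      subst hk
      exact hgood _ (by simp [HeckeJ0.smallTrace, negOne, Matrix.trace_fin_two])⟩
  refine ⟨toCoh _ c, fun h => hv0 ?_, fun ℓ hℓ hS hN => ?_⟩
  · have h0 := (toCoh_eq_zero_iff_of_trivial scalarRep_one).mp h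
    rw [← HeckeJ0.coords_ofCoords N v, ← hψ]
    funext i
    exact congrArg (fun w : Cocycle (scalarRep (1 : (ZMod N)ˣ →* K) K) => w.1 (HeckeJ0.cyc N i)) h0
  · have : NeZero ℓ := ⟨hℓ.out.ne_zero⟩
    rw [heckeOp_toCoh, ← map_smul]
    refine congrArg _ (Subtype.ext (funext fun γ => ?_))
    show (heckeData _ ℓ).raw c.1 γ = lam ℓ * ψ (Additive.ofMul γ)
    have he : HeckeJ0.coords N (HeckeJ0.cohHecke ℓ ψ) = lam ℓ • v := by
      rw [hψ, HeckeJ0.coords_cohHecke_ofCoords]
      exact hv ⟨ℓ, hℓ.out⟩ hS hN
    have he' : HeckeJ0.cohHecke ℓ ψ = HeckeJ0.ofCoords N (lam ℓ • v) := by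
      rw [← he, XHLite.ofCoords_coords_field (HeckeJ0.isGoodHom_cohHecke ℓ hgood)]
    have h1 : lam ℓ * ψ (Additive.ofMul γ) = HeckeJ0.cohHecke ℓ ψ (Additive.ofMul γ) := by
      rw [he', hψ, HeckeJ0.ofCoords_apply, HeckeJ0.ofCoords_apply, Finset.mul_sum]
      exact Finset.sum_congr rfl fun i _ => by rw [Pi.smul_apply, smul_eq_mul, mul_smul_comm]
    rw [h1, HeckeJ0.cohHecke_apply, raw_apply_trivial scalarRep_one]
    refine Finset.sum_congr rfl fun x _ => congrArg c.1 ?_
    exact ((heckeData (scalarRep (1 : (ZMod N)ˣ →* K) K) ℓ).spec_unique toGL_injective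
      (x := x) (y := HeckeJ0.permOf γ x) (γ := γ) (g := HeckeJ0.gOf x γ) (HeckeJ0.rep_mul x γ)).2

/-- `O^d`, acted on through transposed matrices. -/
def TLat (O : Type) (d : ℕ) : Type := Fin d → O

instance {O : Type} [CommRing O] {d : ℕ} : AddCommGroup (TLat O d) :=
  inferInstanceAs (AddCommGroup (Fin d → O))

omit [CharZero K] in
/-- A character of a commutative algebra of matrices has an eigenvector. -/
theorem exists_eigenvector_of_character {O : Type} [CommRing O] {d : ℕ}
    (A : Subalgebra O (Module.End O (Fin d → O))) (hA : ∀ a ∈ A, ∀ b ∈ A, a * b = b * a)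
    (f : A →+* K) :
    ∃ v : Fin d → K, v ≠ 0 ∧ ∀ a : A,
      ((LinearMap.toMatrix' (a : Module.End O (Fin d → O))).map
        fun x => f (algebraMap O A x)) *ᵥ v = f a • v := by
  classical
  let : CommRing A :=
    { (inferInstance : Ring A) with mul_comm := fun a b => Subtype.ext (hA _ a.2 _ b.2) }
  let act : A →+* Module.End O (Fin d → O) :=
    { toFun := fun a => (LinearMap.toMatrix' (a : Module.End O (Fin d → O)))ᵀ.mulVecLin
      map_one' := by simp [Module.End.one_eq_id]
      map_mul' := fun a b => by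
        rw [Subalgebra.coe_mul, hA _ a.2 _ b.2, LinearMap.toMatrix'_mul, Matrix.transpose_mul,
          Matrix.mulVecLin_mul]
        rfl
      map_zero' := by ext; simp
      map_add' := fun a b => by ext; simp [map_add] }
  let : Module A (TLat O d) := Module.compHom (Fin d → O) act
  let of : (Fin d → O) → TLat O d := id
  have hsmul : ∀ (a : A) (x : Fin d → O),
      a • of x = of ((LinearMap.toMatrix' (a : Module.End O (Fin d → O)))ᵀ *ᵥ x) := fun a x => rfl
  have halg : ∀ (r : O) (x : Fin d → O), (algebraMap O A r) • of x = of (r • x) := fun r x => by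
    rw [hsmul]
    refine congrArg of ?_
    rw [show ((algebraMap O A r : A) : Module.End O (Fin d → O)) = r • LinearMap.id from
      LinearMap.ext fun y => rfl, map_smul, LinearMap.toMatrix'_id, Matrix.transpose_smul,
      Matrix.transpose_one, Matrix.smul_mulVec, Matrix.one_mulVec]
  have : Module.Finite A (TLat O d) := ⟨⟨Finset.univ.image fun i => of (Pi.single i (1 : O)),
    eq_top_iff.mpr fun x _ => by
      have hx : x = ∑ i, of ((x : Fin d → O) i • (Pi.single i (1 : O) : Fin d → O)) := by
        funext j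
        show (x : Fin d → O) j = (∑ i, (x : Fin d → O) i • (Pi.single i (1 : O) : Fin d → O)) j
        simp [Finset.sum_apply, Pi.single_apply]
      rw [hx]
      refine Submodule.sum_mem _ fun i _ => ?_
      rw [← halg]
      exact Submodule.smul_mem _ _ (Submodule.subset_span (by simp))⟩⟩
  have hann : Module.annihilator A (TLat O d) ≤ RingHom.ker f := by
    intro a ha
    rw [Module.mem_annihilator] at ha
    have h0 : a = 0 := by
      refine Subtype.ext (LinearMap.toMatrix'.injective ?_)
      rw [ZeroMemClass.coe_zero, map_zero]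
      ext i j
      have hz := congrFun (ha (of (Pi.single i 1))) j
      rw [hsmul] at hz
      simpa [of, show ((0 : TLat O d) : Fin d → O) j = 0 from rfl] using hz
    simp [h0]
  obtain ⟨g₀, hg0, hg⟩ := EigenRep.exists_semilinear_functional f hann
  let g : (Fin d → O) →+ K := g₀
  refine ⟨fun i => g (Pi.single i 1), fun h => hg0 (AddMonoidHom.functions_ext K g 0 fun k x => ?_),
    fun a => ?_⟩
  · have h1 : g (Pi.single k x) = f (algebraMap O A x) * g (Pi.single k 1) := by
      show g₀ (of _) = _ * g₀ (of _)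
      rw [← hg, halg]
      refine congrArg g₀ (congrArg of ?_)
      ext j
      rcases eq_or_ne j k with rfl | hjk <;> simp [*]
    rw [h1, show g (Pi.single k 1) = 0 from congrFun h k]
    simp
  · funext i
    set M := LinearMap.toMatrix' (a : Module.End O (Fin d → O)) with hM
    show ∑ j, f (algebraMap O A (M i j)) * g₀ (of (Pi.single j 1)) = f a * g₀ (of (Pi.single i 1))
    rw [← hg, hsmul, ← hM]
    have e : of (Mᵀ *ᵥ Pi.single i 1)
        = ∑ j, algebraMap O A (M i j) • of (Pi.single j (1 : O) : Fin d → O) := by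
      simp only [halg]
      funext k
      show (Mᵀ *ᵥ Pi.single i 1) k = (∑ j, M i j • (Pi.single j (1 : O) : Fin d → O)) k
      simp [Finset.sum_apply, Pi.single_apply]
    rw [e, map_sum]
    exact Finset.sum_congr rfl fun j _ => (hg _ _).symm

variable {p : ℕ} [Fact p.Prime]

end Fermat.Agent.EigenSystems
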