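import Fermat.Agent.EigenSystems.FromForms
import Fermat.Agent.Engine.TSide

/-!
# Occurring systems and eigenforms

The eigen systems `Engine.Occurs` in terms of normalised eigenforms: from and to eigenforms,
change of field, and the characters of the Hecke algebra.
-/

set_option autoImplicit false

open CongruenceSubgroup
open scoped MatrixGroups

namespace Fermat.Agent.EigenSystems

open HeckeModule

variable {N : ℕ} [NeZero N] {K L : Type} [Field K] [Field L]

omit [NeZero N] in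
theorem occurs_mono {χ : (ZMod N)ˣ →* K} {S T : Finset ℕ} {lam lam' : ℕ → K}
    (h : Engine.Occurs K N χ S lam) (hST : S ⊆ T)
    (hlam : ∀ ℓ : ℕ, ℓ.Prime → ℓ ∉ T → ¬ ℓ ∣ N → lam' ℓ = lam ℓ) :
    Engine.Occurs K N χ T lam' := by
  obtain ⟨c, hc0, hc⟩ := h
  exact ⟨c, hc0, fun ℓ hℓ hT hN => by
    rw [hlam ℓ hℓ.out hT hN]; exact hc ℓ (fun hS => hT (hST hS)) hN⟩

omit [NeZero N] in
/-- Change of field for trivial character. -/
theorem occurs_map (f : K →+* L) {S : Finset ℕ} {lam : ℕ → K} (h : Engine.Occurs K N 1 S lam) :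
    Engine.Occurs L N 1 S fun ℓ => f (lam ℓ) := by
  obtain ⟨c, hc0, hc⟩ := h
  obtain ⟨z, rfl⟩ := toCoh_surjective _ c
  refine ⟨toCoh _ (mapCocycle (σ := scalarRep (1 : (ZMod N)ˣ →* L) L) scalarRep_one scalarRep_one
    f.toAddMonoidHom z), fun h0 => hc0 ?_, fun ℓ hℓ hS hN => ?_⟩
  · have h' := (toCoh_eq_zero_iff_of_trivial scalarRep_one).mp h0
    rw [show z = 0 from Subtype.ext (funext fun γ =>
      f.injective ((congrArg (fun w : Cocycle _ => w.1 γ) h').trans (map_zero f).symm)), map_zero]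
  · have : NeZero ℓ := ⟨hℓ.out.ne_zero⟩
    exact mapCocycle_eigen scalarRep_one scalarRep_one f.toAddMonoidHom (hc ℓ hS hN)
      fun γ => map_mul f _ _

variable [CharZero K]

/-- A system which occurs and is not Eisenstein comes from a normalised eigenform. -/
theorem exists_eigenform_of_occurs [IsAlgClosed K] {S : Finset ℕ} {lam : ℕ → K}
    (h : Engine.Occurs K N 1 S lam) (hne : NonEisensteinSystem N S lam) :
    ∃ (g : CuspForm (Gamma0 N) 2) (θ : integralClosure ℤ ℂ →+* K),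
      g.IsNormalizedEigenform ∧ ∀ ℓ : ℕ, ℓ.Prime → ℓ ∉ S → ¬ ℓ ∣ N →
        ∃ a : integralClosure ℤ ℂ, (a : ℂ) = ModularFormClass.qCoeff g ℓ ∧ θ a = lam ℓ := by
  obtain ⟨c, hc0, hc⟩ := h
  exact exists_eigenform_theta scalarRep_one hc0 hc hne

/-- A system which occurs over a field comes from a normalised eigenform after an extension to an
algebraic closure. -/
theorem exists_eigenform_of_occurs' {S : Finset ℕ} {lam : ℕ → K}
    (h : Engine.Occurs K N 1 S lam) (hne : NonEisensteinSystem N S lam) :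
    ∃ (g : CuspForm (Gamma0 N) 2) (θ : integralClosure ℤ ℂ →+* AlgebraicClosure K),
      g.IsNormalizedEigenform ∧ ∀ ℓ : ℕ, ℓ.Prime → ℓ ∉ S → ¬ ℓ ∣ N →
        ∃ a : integralClosure ℤ ℂ, (a : ℂ) = ModularFormClass.qCoeff g ℓ ∧
          θ a = algebraMap K (AlgebraicClosure K) (lam ℓ) := by
  refine exists_eigenform_of_occurs (occurs_map (algebraMap K (AlgebraicClosure K)) h) ?_
  obtain ⟨ℓ, hℓ, hS, hℓN, hlam⟩ := hne
  exact ⟨ℓ, hℓ, hS, hℓN, fun e => hlam ((algebraMap K (AlgebraicClosure K)).injective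
    (e.trans (by simp)))⟩

/-- The coefficients of a normalised eigenform occur. -/
theorem occurs_of_eigenform {g : CuspForm (Gamma0 N) 2} (hg : g.IsNormalizedEigenform)
    (θ : integralClosure ℤ ℂ →+* K) (S : Finset ℕ) :
    Engine.Occurs K N 1 S
      fun ℓ => θ ⟨ModularFormClass.qCoeff g ℓ, isIntegral_qCoeff hg ℓ⟩ := by
  obtain ⟨c, hc0, hc⟩ := exists_class_of_eigenform (K := K) scalarRep_one hg θ
  exact ⟨c, hc0, fun ℓ hℓ _ _ => hc ℓ⟩

omit [CharZero K] in
/-- A system with values in `O` coming from a normalised eigenform is a character of the Hecke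
algebra away from `S`. -/
theorem exists_heckeHom {O : Type} [CommRing O] [Algebra O K] [FaithfulSMul O K]
    {g : CuspForm (Gamma0 N) 2} (hg : g.IsNormalizedEigenform) (θ : integralClosure ℤ ℂ →+* K)
    {S : Finset ℕ} (hNS : ∀ r : ℕ, r.Prime → r ∣ N → r ∈ S) {lam : ℕ → O}
    (hlam : ∀ ℓ : ℕ, ℓ.Prime → ℓ ∉ S → ¬ ℓ ∣ N →
      algebraMap O K (lam ℓ) = θ ⟨ModularFormClass.qCoeff g ℓ, isIntegral_qCoeff hg ℓ⟩) :
    ∃ χ : CuspForm.heckeAlgebra N 2 (↑S : Set ℕ) →+* O,
      ∀ (ℓ : ℕ) (hℓ : ℓ.Prime) (hN : ¬ ℓ ∣ N) (hS : ℓ ∉ (↑S : Set ℕ)),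
        χ (CuspForm.heckeAlgebra.T hℓ hN hS) = lam ℓ := by
  have := HeckeFinite.finite_heckeAlgebra N 2 ∅
  let incl := (Subalgebra.inclusion
    (CuspForm.heckeAlgebra_mono (N := N) (k := 2) (Set.empty_subset (↑S : Set ℕ)))).toRingHom
  let e : CuspForm.heckeAlgebra N 2 (↑S : Set ℕ) →+* integralClosure ℤ ℂ :=
    ((HeckeEigen.eigenHom hg).comp incl).codRestrict (integralClosure ℤ ℂ) fun t =>
      map_isIntegral_int (HeckeEigen.eigenHom hg) (Algebra.IsIntegral.isIntegral (incl t))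
  have hgen : ∀ (ℓ : ℕ) (hℓ : ℓ.Prime) (hN : ¬ ℓ ∣ N) (hS : ℓ ∉ (↑S : Set ℕ)),
      θ (e (CuspForm.heckeAlgebra.T hℓ hN hS)) = algebraMap O K (lam ℓ) := by
    intro ℓ hℓ hN hS
    rw [hlam ℓ hℓ (by simpa using hS) hN]
    exact congrArg θ (Subtype.ext (HeckeEigen.eigenHom_T hg hℓ hN))
  have hrange : ∀ t, θ (e t) ∈ (algebraMap O K).range := by
    rintro ⟨t, ht⟩
    induction ht using Algebra.adjoin_induction with
    | mem x hx =>
      rcases hx with ⟨ℓ, hℓ, hN, hS, rfl⟩ | ⟨r, hrN, hr, hrS, rfl⟩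
      · exact ⟨lam ℓ, (hgen ℓ hℓ hN hS).symm⟩
      · exact absurd (hNS r hr hrN) (by simpa using hrS)
    | algebraMap m => exact ⟨m, by
        rw [map_intCast, ← map_intCast (θ.comp e) m]
        exact congrArg (θ.comp e) (Subtype.ext (by simp))⟩
    | add x y hx' hy' hx hy =>
      have := add_mem hx hy
      rwa [← map_add θ, ← map_add e] at this
    | mul x y hx' hy' hx hy =>
      have := mul_mem hx hy
      rwa [← map_mul θ, ← map_mul e] at this
  have hinj : Function.Injective (algebraMap O K) := FaithfulSMul.algebraMap_injective O K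
  let r : O ≃+* (algebraMap O K).range :=
    RingEquiv.ofBijective (algebraMap O K).rangeRestrict
      ⟨fun x y h => hinj (congrArg Subtype.val h), RingHom.rangeRestrict_surjective _⟩
  refine ⟨r.symm.toRingHom.comp ((θ.comp e).codRestrict _ hrange), fun ℓ hℓ hN hS => ?_⟩
  refine r.symm_apply_eq.mpr (Subtype.ext ?_)
  exact hgen ℓ hℓ hN hS

omit [NeZero N] [CharZero K] in
/-- Integer coefficients are preserved by `θ`. -/
theorem qCoeff_eq_intCast {g : CuspForm (Gamma0 N) 2} {θ : integralClosure ℤ ℂ →+* K}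
    (hθ : Function.Injective θ) {ℓ : ℕ} {a : integralClosure ℤ ℂ}
    (ha : (a : ℂ) = ModularFormClass.qCoeff g ℓ) {m : ℤ} (hm : θ a = (m : K)) :
    ModularFormClass.qCoeff g ℓ = (m : ℂ) := by
  rw [← map_intCast θ] at hm
  rw [← ha, hθ hm]
  push_cast
  rfl

end Fermat.Agent.EigenSystems
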