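import Fermat.Agent.Engine.Goals
import Fermat.Agent.Isogeny.VariableChange
import Fermat.Agent.EllTorsion.Galois
import Fermat.Agent.EllFrobenius.Rat
import Fermat.Agent.Chebotarev.Main
import Fermat.Agent.Frobenius.Exists
import Fermat.Agent.S29

/-!
# Residual modularity does not depend on the integral model

The traces of the residual representation of the form and of `E[p]` agree on the Frobenius elements
at almost all primes, hence everywhere, hence at every good prime of any other model.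
-/

set_option autoImplicit false

noncomputable section

open WeierstrassCurve
open scoped WeierstrassCurve.Affine

namespace Fermat.Agent.EigenSystems

local notation "Ω" => AlgebraicClosure ℚ

/-- Isomorphic curves have the same traces on torsion. -/
theorem galoisTrace_eq_of_variableChange {E E' : WeierstrassCurve ℚ} [E.IsElliptic]
    [E'.IsElliptic] {C : VariableChange ℚ} (hC : C • E = E') (n : ℕ) [Fact n.Prime]
    (σ : Ω ≃ₐ[ℚ] Ω) :
    Affine.Point.galoisTrace ℚ E n σ = Affine.Point.galoisTrace ℚ E' n σ := by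
  classical
  have : (E.map (algebraMap ℚ Ω)).IsElliptic := inferInstance
  have : (E'.map (algebraMap ℚ Ω)).IsElliptic := inferInstance
  set C' := C.map (algebraMap ℚ Ω) with hC'def
  have hC' : C' • E.map (algebraMap ℚ Ω) = E'.map (algebraMap ℚ Ω) := by
    rw [hC'def, WeierstrassCurve.map_variableChange, hC]
  let e : (E'⁄Ω).Point ≃+ (E⁄Ω).Point := Isogeny.vcEquiv C' hC'
  have he : ∀ (τ : Ω ≃ₐ[ℚ] Ω) (P : (E'⁄Ω).Point), e (τ • P) = τ • e P := by
    intro τ P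
    have hu : (C'.u : Ω) = algebraMap ℚ Ω (C.u : ℚ) := rfl
    have hr : C'.r = algebraMap ℚ Ω C.r := rfl
    have hs : C'.s = algebraMap ℚ Ω C.s := rfl
    have ht : C'.t = algebraMap ℚ Ω C.t := rfl
    rcases P with _ | ⟨x, y, hP⟩
    · rfl
    · show (Affine.Point.some (Isogeny.vcX C' (τ x)) (Isogeny.vcY C' (τ x) (τ y)) _ : (E⁄Ω).Point) =
        Affine.Point.some (τ (Isogeny.vcX C' x)) (τ (Isogeny.vcY C' x y)) _
      simp only [Isogeny.vcX, Isogeny.vcY, hu, hr, hs, ht, map_add,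
        map_mul, map_pow, AlgEquiv.commutes]
  let ψ : Submodule.torsionBy ℤ (E'⁄Ω).Point (n : ℤ) ≃+
      Submodule.torsionBy ℤ (E⁄Ω).Point (n : ℤ) :=
    { toFun := fun T => ⟨e T.1, by
        rw [Submodule.mem_torsionBy_iff, ← map_zsmul, (Submodule.mem_torsionBy_iff _ _).mp T.2,
          map_zero]⟩
      invFun := fun T => ⟨e.symm T.1, by
        rw [Submodule.mem_torsionBy_iff, ← map_zsmul, (Submodule.mem_torsionBy_iff _ _).mp T.2,
          map_zero]⟩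
      left_inv := fun _ => Subtype.ext (e.symm_apply_apply _)
      right_inv := fun _ => Subtype.ext (e.apply_symm_apply _)
      map_add' := fun _ _ => Subtype.ext (map_add e _ _) }
  let L : Submodule.torsionBy ℤ (E'⁄Ω).Point (n : ℤ) ≃ₗ[ZMod n]
      Submodule.torsionBy ℤ (E⁄Ω).Point (n : ℤ) :=
    { ψ with map_smul' := fun c x => ZMod.map_smul ψ.toAddMonoidHom c x }
  have hc : L.conj (Affine.Point.galoisRepModuleEnd ℚ E' n σ) =
      Affine.Point.galoisRepModuleEnd ℚ E n σ := by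
    refine LinearMap.ext fun y => ?_
    rw [LinearEquiv.conj_apply_apply]
    show L (σ • L.symm y) = σ • y
    exact (Subtype.ext (he σ _)).trans (congrArg (σ • ·) (L.apply_symm_apply y))
  rw [Affine.Point.galoisTrace_def, Affine.Point.galoisTrace_def, ← hc, LinearMap.trace_conj']

theorem trace_eq_of_charpoly_eq {K : Type*} [Field K] {V : Type*} [AddCommGroup V] [Module K V]
    [Module.Finite K V] {f : Module.End K V} {a e : K} (h2 : Module.finrank K V = 2)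
    (h : LinearMap.charpoly f = Polynomial.X ^ 2 - Polynomial.C a * Polynomial.X + Polynomial.C e) :
    LinearMap.trace K V f = a := by
  let b := Module.finBasisOfFinrankEq K V h2
  rw [← LinearMap.charpoly_toMatrix f b, Matrix.charpoly_fin_two] at h
  rw [LinearMap.trace_eq_matrix_trace K b]
  have h1 := congrArg (fun q : Polynomial K => q.coeff 1) h
  simp at h1
  exact h1

variable {p : ℕ} [Fact p.Prime] {K : Type} [Field K] [CharP K p]

omit [Field K] in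
/-- Two `K`-valued trace functions of finite level which agree at almost all Frobenius elements are
equal. -/
theorem eq_of_eq_at_frobenius {t₁ t₂ : (Ω ≃ₐ[ℚ] Ω) → K}
    (h₁ : ∃ L : IntermediateField ℚ Ω, FiniteDimensional ℚ L ∧
      ∀ g h : Ω ≃ₐ[ℚ] Ω, (∀ x ∈ L, g x = h x) → t₁ g = t₁ h)
    (h₂ : ∃ L : IntermediateField ℚ Ω, FiniteDimensional ℚ L ∧
      ∀ g h : Ω ≃ₐ[ℚ] Ω, (∀ x ∈ L, g x = h x) → t₂ g = t₂ h)
    (S : Finset ℕ)
    (hfrob : ∀ ℓ : ℕ, ℓ.Prime → ℓ ∉ S → ∀ A : ValuationSubring Ω, A.LiesOverPrime ℓ →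
      ∀ σ : Ω ≃ₐ[ℚ] Ω, A.IsFrobeniusAt σ ℓ → t₁ σ = t₂ σ) (g : Ω ≃ₐ[ℚ] Ω) : t₁ g = t₂ g := by
  obtain ⟨L₁, hf₁, hL₁⟩ := h₁
  obtain ⟨L₂, hf₂, hL₂⟩ := h₂
  have := IntermediateField.finiteDimensional_sup L₁ L₂
  obtain ⟨ℓ, hℓ, hℓS, A, hA, σ, hσ, heq⟩ := Chebotarev.exists_isFrobeniusAt_eqOn (L₁ ⊔ L₂) g S
  rw [← hL₁ σ g fun x hx => heq x ((le_sup_left : L₁ ≤ L₁ ⊔ L₂) hx),
    ← hL₂ σ g fun x hx => heq x ((le_sup_right : L₂ ≤ L₁ ⊔ L₂) hx)]
  exact hfrob ℓ hℓ hℓS A hA σ hσ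

theorem eq_of_fixed {M : Type*} [Monoid M] (ρ : (Ω ≃ₐ[ℚ] Ω) →* M) {L : IntermediateField ℚ Ω}
    (hL : ∀ σ : Ω ≃ₐ[ℚ] Ω, (∀ x ∈ L, σ x = x) → ρ σ = 1) (g h : Ω ≃ₐ[ℚ] Ω)
    (hgh : ∀ x ∈ L, g x = h x) : ρ g = ρ h := by
  have h1 : ρ (h⁻¹ * g) = 1 := hL _ fun x hx => by
    rw [AlgEquiv.mul_apply, hgh x hx]
    exact h.symm_apply_apply x
  calc ρ g = ρ h * ρ (h⁻¹ * g) := by rw [← map_mul, mul_inv_cancel_left]
    _ = ρ h := by rw [h1, mul_one]

omit [CharP K p] in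
/-- Congruences at almost all primes between a form and a curve hold at every good prime of every
model. -/
theorem congr_everywhere {E : WeierstrassCurve ℚ} [E.IsElliptic]
    {W W' : WeierstrassCurve ℤ} (hW : W.IsIntegralModelOf E) (hW' : W'.IsIntegralModelOf E)
    {N : ℕ} [NeZero N] {f : CuspForm (CongruenceSubgroup.Gamma0 N) 2}
    (hf : f.IsNormalizedEigenform) {𝔪 : Ideal (integralClosure ℤ ℂ)} [h𝔪 : 𝔪.IsMaximal]
    (hp𝔪 : (p : integralClosure ℤ ℂ) ∈ 𝔪) (S : Finset ℕ)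
    (hcong : ∀ ℓ : ℕ, ℓ.Prime → ℓ ∉ S → ∃ a : integralClosure ℤ ℂ,
      (a : ℂ) = ModularFormClass.qCoeff f ℓ ∧
        a - ((W.apOfModel ℓ : ℤ) : integralClosure ℤ ℂ) ∈ 𝔪) :
    ∀ ℓ : ℕ, ℓ.Prime → W'.IsGoodPrimeFor ℓ → ¬ ℓ ∣ N → ℓ ≠ p →
      ∃ a : integralClosure ℤ ℂ, (a : ℂ) = ModularFormClass.qCoeff f ℓ ∧
        a - ((W'.apOfModel ℓ : ℤ) : integralClosure ℤ ℂ) ∈ 𝔪 := by
  classical
  let k := integralClosure ℤ ℂ ⧸ 𝔪
  let : Field k := Ideal.Quotient.field 𝔪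
  have : CharP k p := by
    refine (CharP.charP_iff_prime_eq_zero Fact.out).mpr ?_
    rw [← map_natCast (Ideal.Quotient.mk 𝔪)]
    exact Ideal.Quotient.eq_zero_iff_mem.mpr hp𝔪
  obtain ⟨ρ, hρ, -⟩ := S29.result hf (p := p) Fact.out (Ideal.Quotient.mk 𝔪)
  obtain ⟨C, hC⟩ := hW
  obtain ⟨C', hC'⟩ := hW'
  have : (W.map (Int.castRingHom ℚ)).IsElliptic := hC ▸ inferInstance
  have : (W'.map (Int.castRingHom ℚ)).IsElliptic := hC' ▸ inferInstance
  have hΔ : W.Δ ≠ 0 := fun h0 => (W.map (Int.castRingHom ℚ)).isUnit_Δ.ne_zero (by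
    rw [WeierstrassCurve.map_Δ, h0, map_zero])
  let φ : ZMod p →+* k := ZMod.castHom dvd_rfl k
  have key : ∀ g : Ω ≃ₐ[ℚ] Ω, LinearMap.trace k ρ.V (ρ.ρ g)
      = φ (Affine.Point.galoisTrace ℚ (W.map (Int.castRingHom ℚ)) p g) := by
    obtain ⟨L₁, hf₁, hL₁⟩ := ρ.factorsThroughFiniteLevel
    obtain ⟨L₂, hf₂, hL₂⟩ := EllTorsion.galoisFactorsThroughFiniteLevel_galoisRepModuleEnd
      (W.map (Int.castRingHom ℚ)) (Fact.out : p.Prime).ne_zero
    refine eq_of_eq_at_frobenius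
      ⟨L₁, hf₁, fun g h e => congrArg (LinearMap.trace k ρ.V) (eq_of_fixed ρ.ρ hL₁ g h e)⟩
      ⟨L₂, hf₂, fun g h e => by
        simp only [Affine.Point.galoisTrace_def]
        rw [eq_of_fixed _ hL₂ g h e]⟩
      (insert p (S ∪ (W.Δ.natAbs.primeFactors ∪ N.primeFactors))) fun ℓ hℓ hℓS A hA σ hσ => ?_
    simp only [Finset.mem_insert, Finset.mem_union, Nat.mem_primeFactors, hℓ, true_and, ne_eq,
      Int.natAbs_eq_zero, hΔ, not_false_eq_true, and_true, not_or, NeZero.ne N] at hℓS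
    obtain ⟨hℓp, hℓS', hℓΔ, hd⟩ := hℓS
    have hgood : W.IsGoodPrimeFor ℓ := fun hd => hℓΔ (Int.natCast_dvd.mp hd)
    have := Fact.mk hℓ
    obtain ⟨a, ha, hcp⟩ := hρ ℓ hℓ hd (fun h0 => hℓp ((Nat.prime_dvd_prime_iff_eq Fact.out
      hℓ).mp ((CharP.cast_eq_zero_iff k p ℓ).mp h0)).symm) A hA σ hσ
    obtain ⟨a', ha', hmem⟩ := hcong ℓ hℓ hℓS'
    obtain rfl : a' = a := Subtype.ext (ha'.trans ha.symm)
    rw [trace_eq_of_charpoly_eq ρ.finrank_eq hcp,
      EllFrobenius.galoisTrace_eq_apOfModel W ℓ p hℓp hgood A σ hA hσ, map_intCast,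
      ← map_intCast (Ideal.Quotient.mk 𝔪)]
    exact Ideal.Quotient.eq.mpr hmem
  intro ℓ hℓ hgood hℓN hℓp
  have := Fact.mk hℓ
  obtain ⟨A, σ, hA, hσ⟩ := Frobenius.exists_liesOverPrime_and_isFrobeniusAt_qbar hℓ
  obtain ⟨a, ha, hcp⟩ := hρ ℓ hℓ hℓN (fun h0 => hℓp ((Nat.prime_dvd_prime_iff_eq Fact.out
    hℓ).mp ((CharP.cast_eq_zero_iff k p ℓ).mp h0)).symm) A hA σ hσ
  refine ⟨a, ha, Ideal.Quotient.eq.mp ?_⟩
  have h := key σ
  rw [trace_eq_of_charpoly_eq ρ.finrank_eq hcp, ← galoisTrace_eq_of_variableChange hC p σ,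
    galoisTrace_eq_of_variableChange hC' p σ,
    EllFrobenius.galoisTrace_eq_apOfModel W' ℓ p hℓp hgood A σ hA hσ, map_intCast] at h
  rw [h, map_intCast]

omit [CharP K p] in
/-- Residual modularity passes between integral models of the same curve. -/
theorem residuallyModular_of_models {E : WeierstrassCurve ℚ} [E.IsElliptic]
    {W W' : WeierstrassCurve ℤ} (hW : W.IsIntegralModelOf E) (hW' : W'.IsIntegralModelOf E)
    {N : ℕ} (hmod : W.IsResiduallyModularOfLevel p N) : W'.IsResiduallyModularOfLevel p N := by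
  classical
  obtain ⟨f, 𝔪, hf, h𝔪, hp𝔪, hcong⟩ := hmod
  refine ⟨f, 𝔪, hf, h𝔪, hp𝔪, ?_⟩
  rcases eq_or_ne N 0 with rfl | hN
  · exact fun ℓ _ _ hℓN => absurd (dvd_zero ℓ) hℓN
  have : NeZero N := ⟨hN⟩
  have hΔ : W.Δ ≠ 0 := by
    obtain ⟨C, hC⟩ := hW
    have : (W.map (Int.castRingHom ℚ)).IsElliptic := hC ▸ inferInstance
    exact fun h0 => (W.map (Int.castRingHom ℚ)).isUnit_Δ.ne_zero (by
      rw [WeierstrassCurve.map_Δ, h0, map_zero])
  refine congr_everywhere hW hW' hf hp𝔪 (insert p (W.Δ.natAbs.primeFactors ∪ N.primeFactors))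
    fun ℓ hℓ hℓS => ?_
  simp only [Finset.mem_insert, Finset.mem_union, Nat.mem_primeFactors, hℓ, true_and, ne_eq,
    Int.natAbs_eq_zero, hΔ, hN, not_false_eq_true, and_true, not_or] at hℓS
  exact hcong ℓ hℓ (fun hd => hℓS.2.1 (Int.natCast_dvd.mp hd)) hℓS.2.2 hℓS.1

/-- The engine goal `ResidualModelIndependent`. -/
theorem residualModelIndependent : Engine.ResidualModelIndependent := by
  intro P N W hW hmod
  have : Fact P.p.Prime := ⟨P.pp⟩
  have : P.freyCurve.IsElliptic := by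
    rw [WeierstrassCurve.isElliptic_iff, isUnit_iff_ne_zero, ← MultRed.freyCurveInt_map,
      WeierstrassCurve.map_Δ, map_ne_zero_iff _ (Int.cast_injective (α := ℚ))]
    exact MultRed.freyCurveInt_Δ_ne_zero P
  exact residuallyModular_of_models hW ⟨1, by rw [one_smul, MultRed.freyCurveInt_map]⟩ hmod

end Fermat.Agent.EigenSystems
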