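import Fermat.Agent.EigenSystems.ToForms
import Fermat.Agent.EigenSystems.TwistInjective
import Fermat.Agent.HeckeFinite.Hecke
import Fermat.Prelude.Def_FLTPrelim_ModularRep
import Mathlib.RingTheory.Localization.FractionRing
import Mathlib.FieldTheory.IntermediateField.Algebraic
import Mathlib.FieldTheory.IsAlgClosed.AlgebraicClosure

/-!
# Eigen classes and eigenforms

From normalised eigenforms to eigen classes with values in any field of characteristic zero, and
back, in the form `θ (a ℓ) = lam ℓ` for a ring map `θ` on algebraic integers.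
-/

set_option autoImplicit false

open CongruenceSubgroup ModularCurve ModularCurve.Period
open scoped MatrixGroups

universe uK

namespace Fermat.Agent.EigenSystems

open HeckeJ0 HeckeModule

variable {N : ℕ} [NeZero N]

/-- Coefficients of normalised eigenforms are algebraic integers. -/
theorem isIntegral_qCoeff {g : CuspForm (Gamma0 N) 2} (hg : g.IsNormalizedEigenform) (n : ℕ) :
    IsIntegral ℤ (ModularFormClass.qCoeff g n) :=
  haveI := HeckeFinite.finite_heckeAlgebra N 2 ∅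
  HeckeEigen.isIntegral_qCoeff_of_finite hg n

/-- The periods of a normalised eigenform are an eigen class for all the Hecke operators. -/
theorem heckeOp_periodClass {g : CuspForm (Gamma0 N) 2} (hg : g.IsNormalizedEigenform) (ℓ : ℕ)
    [hℓ : Fact ℓ.Prime] :
    heckeOp (cRep N) ℓ (periodClass g) = ModularFormClass.qCoeff g ℓ • periodClass g := by
  rw [← periodClass_heckeAt, ← map_smul]
  refine congrArg _ ?_
  rw [LevelRaising.heckeAt]
  split_ifs with h
  · exact HeckeEigen.heckeULin_apply_of_isNormalizedEigenform hg hℓ.out h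
  · exact HeckeEigen.heckeTLin_apply_of_isNormalizedEigenform hg hℓ.out h

variable {K : Type uK} [Field K] [CharZero K]

omit [NeZero N] in
/-- Maps of algebraic integers to characteristic zero are injective. -/
theorem theta_injective (θ : integralClosure ℤ ℂ →+* K) : Function.Injective θ := by
  refine (injective_iff_map_eq_zero θ).mpr fun x hx => ?_
  by_contra hx0
  obtain ⟨m, hm0, hm⟩ : ∃ m : ℤ, m ≠ 0 ∧ (m : integralClosure ℤ ℂ) ∈ Ideal.span {x} := by
    have hne : Ideal.comap (algebraMap ℤ (integralClosure ℤ ℂ)) (Ideal.span {x}) ≠ ⊥ :=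
      Ideal.comap_ne_bot_of_root_mem hx0 (Ideal.mem_span_singleton_self x)
        (minpoly.ne_zero (Algebra.IsIntegral.isIntegral x)) (minpoly.aeval ℤ x)
    obtain ⟨m, hm, hm0⟩ := (Submodule.ne_bot_iff _).mp hne
    exact ⟨m, hm0, by simpa using hm⟩
  obtain ⟨y, hy⟩ := Ideal.mem_span_singleton'.mp hm
  have h := congrArg θ hy
  rw [map_mul, hx, mul_zero, map_intCast] at h
  exact hm0 (by exact_mod_cast h.symm)

variable {ρ : Representation K (ZMod N)ˣ K} (hρ : ∀ u, ρ u = 1)

include hρ in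
/-- **Eigenforms give eigen classes**, for all `T ℓ` and `U ℓ`. -/
theorem exists_class_of_eigenform {g : CuspForm (Gamma0 N) 2} (hg : g.IsNormalizedEigenform)
    (θ : integralClosure ℤ ℂ →+* K) :
    ∃ c : Coh1 ρ, c ≠ 0 ∧ ∀ (ℓ : ℕ) [Fact ℓ.Prime],
      heckeOp ρ ℓ c = θ ⟨ModularFormClass.qCoeff g ℓ, isIntegral_qCoeff hg ℓ⟩ • c := by
  classical
  have hθ : Function.Injective θ := theta_injective θ
  let F := FractionRing (integralClosure ℤ ℂ)
  let j : F →+* K := IsFractionRing.lift hθ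
  let i : F →+* ℂ := IsFractionRing.lift (A := integralClosure ℤ ℂ)
    (g := algebraMap (integralClosure ℤ ℂ) ℂ) (FaithfulSMul.algebraMap_injective _ _)
  let : Algebra F ℂ := i.toAlgebra
  have hz : periodCocycle g ≠ 0 := fun h => by
    refine hg.ne_zero (eq_zero_of_period_add_conj (a := g) (b := 0) ?_).1
    rw [h, zero_add, map_zero]
    first | rfl | exact Subtype.ext (funext fun γ => map_zero (starRingEnd ℂ))
  obtain ⟨γ₀, hγ₀⟩ : ∃ γ, (periodCocycle g).1 γ ≠ 0 := by
    by_contra h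
    push Not at h
    exact hz (Subtype.ext (funext h))
  obtain ⟨φ, hφ⟩ : ∃ φ : Module.Dual F ℂ, φ ((periodCocycle g).1 γ₀) ≠ 0 := by
    by_contra h
    push Not at h
    exact hγ₀ ((Module.forall_dual_apply_eq_zero_iff F _).mp h)
  let f : ℂ →+ K := j.toAddMonoidHom.comp φ.toAddMonoidHom
  refine ⟨toCoh ρ (mapCocycle cRep_eq_one hρ f (periodCocycle g)), fun h => ?_, fun ℓ hℓ => ?_⟩
  · have := congrArg (fun w : Cocycle ρ => w.1 γ₀) ((toCoh_eq_zero_iff_of_trivial hρ).mp h)
    exact hφ (j.injective (this.trans (map_zero j).symm))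
  · have : NeZero ℓ := ⟨hℓ.out.ne_zero⟩
    refine mapCocycle_eigen cRep_eq_one hρ f
      (by rw [← periodClass_apply]; exact heckeOp_periodClass hg ℓ) fun γ => ?_
    set a : integralClosure ℤ ℂ := ⟨ModularFormClass.qCoeff g ℓ, isIntegral_qCoeff hg ℓ⟩
    have ha : i (algebraMap _ F a) = ModularFormClass.qCoeff g ℓ := IsFractionRing.lift_algebraMap _ a
    show j (φ (ModularFormClass.qCoeff g ℓ • (periodCocycle g).1 γ)) = θ a • j (φ _)
    rw [← ha, show i (algebraMap _ F a) • (periodCocycle g).1 γ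
        = (algebraMap _ F a) • (periodCocycle g).1 γ from rfl, map_smul, smul_eq_mul, map_mul,
      IsFractionRing.lift_algebraMap, smul_eq_mul]

include hρ in
/-- **Eigen classes come from eigenforms**, algebraically closed coefficients. -/
theorem exists_eigenform_theta [IsAlgClosed K] {S : Finset ℕ} {lam : ℕ → K} {c : Coh1 ρ}
    (hc0 : c ≠ 0) (hc : IsEigen ρ S lam c) (hne : NonEisensteinSystem N S lam) :
    ∃ (g : CuspForm (Gamma0 N) 2) (θ : integralClosure ℤ ℂ →+* K),
      g.IsNormalizedEigenform ∧ ∀ ℓ : ℕ, ℓ.Prime → ℓ ∉ S → ¬ ℓ ∣ N →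
        ∃ a : integralClosure ℤ ℂ, (a : ℂ) = ModularFormClass.qCoeff g ℓ ∧ θ a = lam ℓ := by
  classical
  obtain ⟨K₀, ι, g, hg, hgl⟩ := exists_eigenform hρ hc0 hc hne
  let G : Set K := {t | ∃ ℓ : ℕ, ℓ.Prime ∧ ℓ ∉ S ∧ ¬ ℓ ∣ N ∧ t = lam ℓ}
  let L : IntermediateField ℚ K := IntermediateField.adjoin ℚ G
  have hLK : L ≤ K₀ := IntermediateField.adjoin_le_iff.mpr fun t ⟨ℓ, hℓ, hS, hN, ht⟩ => by
    obtain ⟨-, x, hx, -⟩ := hgl ℓ hℓ hS hN
    rw [ht, ← hx]
    exact x.2
  have : Algebra.IsAlgebraic ℚ L :=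
    IntermediateField.isAlgebraic_adjoin fun t ⟨ℓ, hℓ, hS, hN, ht⟩ =>
      ht ▸ (hgl ℓ hℓ hS hN).1.tower_top
  let ι' : L →+* ℂ := ι.comp (IntermediateField.inclusion hLK).toRingHom
  let Q := algebraicClosure ℚ ℂ
  have hmem : ∀ x : L, ι' x ∈ Q := fun x => by
    rw [mem_algebraicClosure_iff]
    exact ((Algebra.IsIntegral.isIntegral (R := ℚ) x).map ι'.toRatAlgHom).isAlgebraic
  let : Algebra L Q := (ι'.codRestrict Q.toSubfield hmem).toAlgebra
  have : IsScalarTower ℚ L Q := IsScalarTower.of_algebraMap_eq' (Subsingleton.elim _ _)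
  have : Algebra.IsAlgebraic ℚ Q := algebraicClosure.isAlgebraic ℚ ℂ
  have : Algebra.IsAlgebraic L Q := Algebra.IsAlgebraic.tower_top (K := ℚ) (L := L)
  let j : Q →ₐ[L] K := IsAlgClosed.lift
  have hQ : ∀ a : integralClosure ℤ ℂ, (a : ℂ) ∈ Q := fun a => by
    rw [mem_algebraicClosure_iff]
    exact (IsIntegral.tower_top a.2).isAlgebraic
  let θ : integralClosure ℤ ℂ →+* K :=
    (j : Q →+* K).comp ((algebraMap (integralClosure ℤ ℂ) ℂ).codRestrict Q.toSubfield hQ)
  refine ⟨g, θ, hg, fun ℓ hℓ hS hN => ⟨⟨_, isIntegral_qCoeff hg ℓ⟩, rfl, ?_⟩⟩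
  obtain ⟨-, x, hx, hιx⟩ := hgl ℓ hℓ hS hN
  let y : L := ⟨lam ℓ, IntermediateField.subset_adjoin ℚ G ⟨ℓ, hℓ, hS, hN, rfl⟩⟩
  refine (congrArg j (Subtype.ext ?_)).trans (j.commutes y)
  show ModularFormClass.qCoeff g ℓ = ι (IntermediateField.inclusion hLK y)
  rw [← hιx]
  exact congrArg ι (Subtype.ext hx)

end Fermat.Agent.EigenSystems
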