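import Fermat.Agent.EigenSystems.Parabolic
import Fermat.Agent.EichlerShimura.StarHecke
import Fermat.Agent.EichlerShimura.HeckePeriod
import Fermat.Agent.HeckeFinite.WeightTwo
import Fermat.Agent.LevelRaising.FormOfSymbol
import Fermat.Agent.S20

/-!
# Periods as cohomology classes

Periods of cusp forms as classes in `H¹(Γ₀(N), ℂ)`, compatible with the Hecke operators; every
parabolic class is `P a + conj (P b)`.
-/

set_option autoImplicit false

open CongruenceSubgroup UpperHalfPlane ModularCurve ModularCurve.Period Matrix.SpecialLinearGroup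
open scoped MatrixGroups OnePoint ModularForm ComplexConjugate

namespace Fermat.Agent.EigenSystems

open HeckeJ0 HeckeModule EichlerShimura

variable {N : ℕ} [NeZero N]

/-- Trivial complex coefficients. -/
noncomputable abbrev cRep (N : ℕ) : Representation ℂ (ZMod N)ˣ ℂ :=
  scalarRep (1 : (ZMod N)ˣ →* ℂ) ℂ

omit [NeZero N] in
lemma cRep_eq_one (u : (ZMod N)ˣ) : cRep N u = 1 := scalarRep_one u

/-- The periods of a cusp form as a cocycle. -/
noncomputable def periodCocycle : CuspForm (Gamma0 N) 2 →ₗ[ℂ] Cocycle (cRep N) where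
  toFun f := ⟨fun γ => periodMap N f (Additive.ofMul γ), fun g h => by
      show periodMap N f (Additive.ofMul (g * h)) = periodMap N f (Additive.ofMul g) +
        gammaRep (cRep N) g (periodMap N f (Additive.ofMul h))
      rw [ofMul_mul, map_add, gammaRep_apply, cRep_eq_one, Module.End.one_apply],
    fun k hk => by
      rw [Set.mem_singleton_iff] at hk
      subst hk
      exact periodMap_mem_parabolicHoms f (negOne N) (by simp [negOne])⟩
  map_add' f g := Subtype.ext (funext fun γ => by
    show periodMap N (f + g) (Additive.ofMul γ) = _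
    rw [← HeckeFinite.periodMapLin_apply, map_add]
    rfl)
  map_smul' r f := Subtype.ext (funext fun γ => by
    show periodMap N (r • f) (Additive.ofMul γ) = _
    rw [← HeckeFinite.periodMapLin_apply, map_smul]
    rfl)

lemma periodCocycle_apply (f : CuspForm (Gamma0 N) 2) (γ : Gamma0 N) :
    (periodCocycle f).1 γ = periodMap N f (Additive.ofMul γ) := rfl

/-- The class of the periods. -/
noncomputable def periodClass : CuspForm (Gamma0 N) 2 →ₗ[ℂ] Coh1 (cRep N) :=
  toCoh (cRep N) ∘ₗ periodCocycle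

lemma periodClass_apply (f : CuspForm (Gamma0 N) 2) :
    periodClass f = toCoh (cRep N) (periodCocycle f) := rfl

section Hecke

variable {ℓ : ℕ} [hℓ : Fact ℓ.Prime]

omit [NeZero N] in
lemma isAffineAt_rep [NeZero ℓ] (x : Idx N ℓ) : ∃ (a : ℝ) (b : ℂ), IsAffineAt (rep x) a b ∧
    a = x.1.elim (ℓ : ℝ) fun _ => (ℓ : ℝ)⁻¹ := by
  obtain ⟨x, hx⟩ := x
  cases x with
  | infty => exact ⟨_, _, isAffineAt_heckeDiagMatrix hℓ.out.ne_zero, rfl⟩
  | coe j => exact ⟨_, _, isAffineAt_heckeMatrix hℓ.out.ne_zero j.val, rfl⟩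

open P2MW.S_ModularForm_heckeT_slash_eq_self_of_mem_Gamma0.ModularForm.HeckeSlashInvariance in
lemma heckeAt_apply [NeZero ℓ] (f : CuspForm (Gamma0 N) 2) (τ : ℍ) :
    LevelRaising.heckeAt N ⟨ℓ, hℓ.out⟩ f τ =
      ∑ x : Idx N ℓ, ((x.1.elim (ℓ : ℝ) fun _ => (ℓ : ℝ)⁻¹ : ℝ) : ℂ) * f (rep x • τ) := by
  have hne := hℓ.out.ne_zero
  rw [LevelRaising.heckeAt]
  split_ifs with h
  · let E : ZMod ℓ ≃ Idx N ℓ :=
      { toFun := fun j => ⟨(j : OnePoint (ZMod ℓ)), fun _ => OnePoint.coe_ne_infty j⟩
        invFun := fun x => x.1.elim 0 id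
        left_inv := fun j => rfl
        right_inv := fun x => by
          obtain ⟨j, hj⟩ := OnePoint.ne_infty_iff_exists.mp (x.2 h)
          refine Subtype.ext ?_
          show ((x.1.elim 0 id : ZMod ℓ) : OnePoint (ZMod ℓ)) = x.1
          rw [← hj]
          rfl }
    rw [CuspForm.heckeULin_apply_apply, ModularForm.heckeU_apply 2 hne,
      sum_range_eq_sum_zmod (p := ℓ) (fun j => f (ModularForm.heckeMatrix ℓ j • τ)),
      Finset.mul_sum]
    refine Fintype.sum_equiv E _ _ fun j => ?_
    show _ = (((ℓ : ℝ)⁻¹ : ℝ) : ℂ) * f (ModularForm.heckeMatrix ℓ j.val • τ)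
    push_cast
    rfl
  · let E : OnePoint (ZMod ℓ) ≃ Idx N ℓ :=
      ⟨fun x => ⟨x, fun h' => absurd h' h⟩, fun x => x.1, fun _ => rfl, fun _ => rfl⟩
    rw [CuspForm.heckeTLin_apply_apply, ModularForm.heckeT_apply 2 hne,
      sum_range_eq_sum_zmod (p := ℓ) (fun j => f (ModularForm.heckeMatrix ℓ j • τ)),
      Finset.mul_sum, add_comm, ← Equiv.sum_comp E]
    refine Eq.trans ?_ (Fintype.sum_option _).symm
    congr 1
    · show (ℓ : ℂ) ^ ((2 : ℤ) - 1) * f (ModularForm.heckeDiagMatrix ℓ • τ)
        = ((ℓ : ℝ) : ℂ) * f (ModularForm.heckeDiagMatrix ℓ • τ)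
      norm_num
    · refine Finset.sum_congr rfl fun j _ => ?_
      show _ = (((ℓ : ℝ)⁻¹ : ℝ) : ℂ) * f (ModularForm.heckeMatrix ℓ j.val • τ)
      push_cast
      rfl

omit hℓ [NeZero N] in
lemma isEquivariant_primitive {f : CuspForm (Gamma0 N) 2} {F : ℍ → ℂ}
    (hF : HasEquivariantPrimitive N f F) :
    IsEquivariant (toGL N) (gammaRep (cRep N)) (fun γ => hF.2.2.1.period γ)
      (fun M => F (M • UpperHalfPlane.I)) := by
  intro g M
  show F ((toGL N g * M) • UpperHalfPlane.I) = _
  rw [gammaRep_apply, cRep_eq_one, Module.End.one_apply, mul_smul]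
  show F ((toGL N g) • M • UpperHalfPlane.I) = hF.2.2.1.period g + F (M • UpperHalfPlane.I)
  rw [← hF.2.2.1.sub_eq_period g (M • UpperHalfPlane.I)]
  rw [show (toGL N g) • M • UpperHalfPlane.I = (g : SL(2, ℤ)) • M • UpperHalfPlane.I from rfl]
  ring

omit hℓ in
lemma periodCocycle_eq_period {f : CuspForm (Gamma0 N) 2} {F : ℍ → ℂ}
    (hF : HasEquivariantPrimitive N f F) :
    (periodCocycle f).1 = fun γ => hF.2.2.1.period γ := by
  funext γ
  rw [periodCocycle_apply, periodMap_eq_of_primitive f F hF,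
    IsEquivariantPrimitive.periodHom_apply]

/-- The period map commutes with the Hecke operators. -/
theorem periodClass_heckeAt (f : CuspForm (Gamma0 N) 2) :
    periodClass (LevelRaising.heckeAt N ⟨ℓ, hℓ.out⟩ f) = heckeOp (cRep N) ℓ (periodClass f) := by
  have : NeZero ℓ := ⟨hℓ.out.ne_zero⟩
  set g := LevelRaising.heckeAt N ⟨ℓ, hℓ.out⟩ f with hg
  obtain ⟨F, hF⟩ := exists_hasEquivariantPrimitive f
  obtain ⟨G, hG⟩ := exists_hasEquivariantPrimitive g
  rw [periodClass_apply, periodClass_apply, heckeOp_toCoh]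
  have h1 := (heckeData (cRep N) ℓ).isEquivariant_act toGL_injective
    (c := (periodCocycle f).1) (by rw [periodCocycle_eq_period hF]; exact isEquivariant_primitive hF)
  have h2 : IsEquivariant (toGL N) (gammaRep (cRep N)) (periodCocycle g).1
      (fun M => G (M • UpperHalfPlane.I)) := by
    rw [periodCocycle_eq_period hG]; exact isEquivariant_primitive hG
  choose a b hab ha using isAffineAt_rep (N := N) (ℓ := ℓ)
  have hconst : ∀ z w : ℍ, G z - ∑ x : Idx N ℓ, F (rep x • z)
      = G w - ∑ x : Idx N ℓ, F (rep x • w) := by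
    intro z w
    refine eq_of_hasDerivAt_zero (H := fun z => G z - ∑ x : Idx N ℓ, F (rep x • z))
      (fun τ => ?_) z w
    have hd := (hG.1 τ).sub (HasDerivAt.fun_sum (u := Finset.univ)
      fun (x : Idx N ℓ) _ => hasDerivAt_comp_affine (hab x) (hF.1 (rep x • τ)))
    rw [show g τ = ∑ x : Idx N ℓ, (a x : ℂ) * f (rep x • τ) by
      rw [hg, heckeAt_apply]; simp only [ha], sub_self] at hd
    exact hd
  refine cls_eq_of_equivariant h2 h1
    (G UpperHalfPlane.I - ∑ x : Idx N ℓ, F (rep x • UpperHalfPlane.I)) fun M => ?_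
  have hact : (heckeData (cRep N) ℓ).act (fun M => F (M • UpperHalfPlane.I)) M
      = ∑ x : Idx N ℓ, F (rep x • M • UpperHalfPlane.I) := by
    refine Finset.sum_congr rfl fun x _ => ?_
    show cRep N (aUnit x) (F ((rep x * M) • UpperHalfPlane.I)) = _
    rw [cRep_eq_one, Module.End.one_apply, mul_smul]
  rw [hact]
  linear_combination hconst (M • UpperHalfPlane.I) UpperHalfPlane.I

end Hecke

/-- Complex conjugation of classes. -/
noncomputable def conjCocycle (c : Cocycle (cRep N)) : Cocycle (cRep N) :=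
  mapCocycle cRep_eq_one cRep_eq_one (starRingEnd ℂ).toAddMonoidHom c

omit [NeZero N] in
lemma conjCocycle_apply (c : Cocycle (cRep N)) (γ : Gamma0 N) :
    (conjCocycle c).1 γ = conj (c.1 γ) := rfl

lemma periodMap_starForm (f : CuspForm (Gamma0 N) 2) (γ : Gamma0 N) :
    periodMap N (starForm f) (Additive.ofMul γ)
      = -conj (periodMap N f (Additive.ofMul (jConjGamma0 N γ))) := by
  obtain ⟨F, hF⟩ := exists_hasEquivariantPrimitive f
  rw [periodMap_eq_of_primitive _ _ hF,
    periodMap_eq_of_primitive _ _ (hasEquivariantPrimitive_starForm hF),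
    IsEquivariantPrimitive.periodHom_apply, IsEquivariantPrimitive.periodHom_apply,
    period_starForm hF]

lemma periodHomPair_apply_eq (f g : CuspForm (Gamma0 N) 2) (γ : Gamma0 N) :
    periodHomPair N (f, g) (Additive.ofMul γ) =
      (periodCocycle (f + g)).1 γ + (conjCocycle (periodCocycle (-starForm (f - g)))).1 γ := by
  rw [conjCocycle_apply, periodCocycle_apply, periodCocycle_apply, HeckeFinite.periodHomPair_eq,
    LinearMap.coprod_apply, ← HeckeFinite.periodMapLin_apply, ← HeckeFinite.periodMapLin_apply,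
    map_neg, AddMonoidHom.neg_apply, HeckeFinite.periodMapLin_apply,
    HeckeFinite.periodMapLin_apply, periodMap_starForm, ← HeckeFinite.periodMapLin_apply,
    ← HeckeFinite.periodMapLin_apply, map_add, map_sub]
  simp
  ring

/-- `P a + conj (P b)` determines `a` and `b`. -/
theorem eq_zero_of_period_add_conj {a b : CuspForm (Gamma0 N) 2}
    (h : periodCocycle a + conjCocycle (periodCocycle b) = 0) : a = 0 ∧ b = 0 := by
  set d : CuspForm (Gamma0 N) 2 := -starForm b
  set f : CuspForm (Gamma0 N) 2 := (2 : ℂ)⁻¹ • (a + d)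
  set g : CuspForm (Gamma0 N) 2 := (2 : ℂ)⁻¹ • (a - d)
  have hfg : f + g = a := by
    simp only [f, g]; rw [← smul_add]; module
  have hfg' : f - g = d := by
    simp only [f, g]; rw [← smul_sub]; module
  have hb : -starForm d = b := by
    rw [show d = (-1 : ℂ) • starForm b from (neg_one_smul ℂ _).symm, starForm_smul,
      starForm_starForm, map_neg, map_one, neg_one_smul, neg_neg]
  have h0 : periodHomPair N (f, g) = 0 := by
    refine AddMonoidHom.ext fun γ => ?_
    obtain ⟨γ, rfl⟩ := Additive.ofMul.surjective γ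
    rw [periodHomPair_apply_eq, hfg, hfg', hb, AddMonoidHom.zero_apply]
    exact congrArg (fun c : Cocycle (cRep N) => c.1 γ) h
  have hz : (f, g) = (0, 0) :=
    ((periodFacts N).periodHomPair_injective (h0.trans (map_zero _).symm)).trans Prod.zero_eq_mk
  obtain ⟨h1, h2⟩ := Prod.mk.inj hz
  have ha : a = 0 := by rw [← hfg, h1, h2, add_zero]
  refine ⟨ha, ?_⟩
  rw [← hb, show d = 0 by rw [← hfg', h1, h2, sub_zero]]
  rw [show (0 : CuspForm (Gamma0 N) 2) = (0 : ℂ) • 0 from (zero_smul ℂ _).symm, starForm_smul,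
    map_zero, zero_smul, neg_zero, zero_smul]

/-- Every parabolic complex cocycle is `P a + conj (P b)`. -/
theorem exists_period_add_conj (c : Cocycle (cRep N))
    (hc : IsParabolicHom (Gamma0 N) (homOf cRep_eq_one c)) :
    ∃ a b : CuspForm (Gamma0 N) 2, c = periodCocycle a + conjCocycle (periodCocycle b) := by
  have hc' : homOf cRep_eq_one c ∈ parabolicHoms ℂ (Gamma0 N) ℂ := hc
  rw [← (periodFacts N).range_periodHomPair (S20.result N).ge] at hc'
  obtain ⟨⟨f, g⟩, hfg⟩ := hc'
  refine ⟨f + g, -starForm (f - g), Subtype.ext (funext fun γ => ?_)⟩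
  rw [← homOf_apply cRep_eq_one, ← hfg, periodHomPair_apply_eq]
  rfl

end Fermat.Agent.EigenSystems
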