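import Fermat.Agent.EigenSystems.ModelIndependent
import Fermat.Agent.EigenSystems.Occurs

/-!
# Modularity from almost all coefficients

A normalised eigenform with the coefficients of a curve at almost all primes makes it modular of
that level: the congruences modulo a large prime propagate to every good prime.
-/

set_option autoImplicit false

open CongruenceSubgroup
open scoped MatrixGroups

namespace Fermat.Agent.EigenSystems

/-- An algebraic integer lying over arbitrarily large primes is zero. -/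
theorem eq_zero_of_mem_large (x : integralClosure ℤ ℂ)
    (h : ∀ B : ℕ, ∃ p : ℕ, p.Prime ∧ B < p ∧
      ∃ 𝔪 : Ideal (integralClosure ℤ ℂ), 𝔪.IsMaximal ∧ (p : integralClosure ℤ ℂ) ∈ 𝔪 ∧ x ∈ 𝔪) :
    x = 0 := by
  by_contra hx0
  have hne : Ideal.comap (algebraMap ℤ (integralClosure ℤ ℂ)) (Ideal.span {x}) ≠ ⊥ :=
    Ideal.comap_ne_bot_of_root_mem hx0 (Ideal.mem_span_singleton_self x)
      (minpoly.ne_zero (Algebra.IsIntegral.isIntegral x)) (minpoly.aeval ℤ x)
  obtain ⟨m, hm, hm0⟩ := (Submodule.ne_bot_iff _).mp hne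
  obtain ⟨p, hp, hBp, 𝔪, h𝔪, hp𝔪, hx⟩ := h m.natAbs
  have hm𝔪 : algebraMap ℤ (integralClosure ℤ ℂ) m ∈ 𝔪 :=
    Ideal.span_le.mpr (Set.singleton_subset_iff.mpr hx) hm
  have hle : Ideal.span {(p : ℤ)} ≤ 𝔪.comap (algebraMap ℤ (integralClosure ℤ ℂ)) := by
    rw [Ideal.span_singleton_le_iff_mem, Ideal.mem_comap, map_natCast]
    exact hp𝔪
  have hmax : (Ideal.span {(p : ℤ)}).IsMaximal :=
    PrincipalIdealRing.isMaximal_of_irreducible
      (Int.prime_iff_natAbs_prime.2 (by simpa)).irreducible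
  have hmp : m ∈ Ideal.span {(p : ℤ)} := by
    rw [hmax.eq_of_le (Ideal.IsPrime.ne_top inferInstance) hle, Ideal.mem_comap]
    exact hm𝔪
  have := Int.natAbs_dvd_natAbs.mpr (Ideal.mem_span_singleton.mp hmp)
  rw [Int.natAbs_natCast] at this
  exact absurd (Nat.le_of_dvd (Int.natAbs_pos.mpr hm0) this) (not_le.mpr hBp)

/-- A normalised eigenform with the coefficients of `W` at almost all primes makes `W` modular. -/
theorem isModularModelOfLevel_of_almost {W : WeierstrassCurve ℤ} (hΔ : W.Δ ≠ 0) {N : ℕ} [NeZero N]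
    {g : CuspForm (Gamma0 N) 2} (hg : g.IsNormalizedEigenform) (S : Finset ℕ)
    (h : ∀ ℓ : ℕ, ℓ.Prime → ℓ ∉ S → ModularFormClass.qCoeff g ℓ = (W.apOfModel ℓ : ℂ)) :
    W.IsModularModelOfLevel N := by
  classical
  have : (W.map (Int.castRingHom ℚ)).IsElliptic := by
    rw [WeierstrassCurve.isElliptic_iff, isUnit_iff_ne_zero, WeierstrassCurve.map_Δ,
      map_ne_zero_iff _ (Int.cast_injective (α := ℚ))]
    exact hΔ
  refine ⟨g, hg, fun ℓ hℓ hgood hℓN => ?_⟩
  suffices hx : (⟨ModularFormClass.qCoeff g ℓ, isIntegral_qCoeff hg ℓ⟩ : integralClosure ℤ ℂ)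
      - ((W.apOfModel ℓ : ℤ) : integralClosure ℤ ℂ) = 0 by
    have := congrArg (fun z : integralClosure ℤ ℂ => (z : ℂ)) (sub_eq_zero.mp hx)
    simpa using this
  refine eq_zero_of_mem_large _ fun B => ?_
  obtain ⟨p, hBp, hp⟩ := Nat.exists_infinite_primes (max B ℓ + 1)
  have : Fact p.Prime := ⟨hp⟩
  obtain ⟨𝔪, h𝔪, hp𝔪⟩ := FLTPrelim.exists_maximalIdeal_natCast_prime_mem hp
  refine ⟨p, hp, by omega, 𝔪, h𝔪, hp𝔪, ?_⟩
  have hW : W.IsIntegralModelOf (W.map (Int.castRingHom ℚ)) := ⟨1, one_smul _ _⟩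
  obtain ⟨a, ha, hmem⟩ := congr_everywhere (p := p) hW hW hg hp𝔪 S
    (fun r hr hrS => ⟨⟨_, isIntegral_qCoeff hg r⟩, rfl, by
      convert 𝔪.zero_mem
      rw [sub_eq_zero]
      exact Subtype.ext (by simpa using h r hr hrS)⟩) ℓ hℓ hgood hℓN (by omega)
  rwa [show a = ⟨_, isIntegral_qCoeff hg ℓ⟩ from Subtype.ext ha] at hmem

/-- A system with the coefficients of `W` at almost all primes which occurs and is not Eisenstein
makes `W` modular. -/
theorem isModularModelOfLevel_of_occurs {W : WeierstrassCurve ℤ} (hΔ : W.Δ ≠ 0) {N : ℕ} [NeZero N]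
    {K : Type} [Field K] [CharZero K] {S : Finset ℕ} {lam : ℕ → K}
    (hocc : Engine.Occurs K N 1 S lam) (hne : NonEisensteinSystem N S lam)
    (T : Finset ℕ) (hlam : ∀ ℓ : ℕ, ℓ.Prime → ℓ ∉ T → lam ℓ = ((W.apOfModel ℓ : ℤ) : K)) :
    W.IsModularModelOfLevel N := by
  classical
  obtain ⟨g, θ, hg, hgl⟩ := exists_eigenform_of_occurs' hocc hne
  refine isModularModelOfLevel_of_almost hΔ hg (S ∪ T ∪ N.primeFactors) fun ℓ hℓ hS => ?_
  simp only [Finset.mem_union, Nat.mem_primeFactors, hℓ, true_and, ne_eq, NeZero.ne N,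
    not_false_eq_true, and_true, not_or] at hS
  obtain ⟨a, ha, hθ⟩ := hgl ℓ hℓ hS.1.1 hS.2
  refine qCoeff_eq_intCast (theta_injective θ) ha ?_
  rw [hθ, hlam ℓ hℓ hS.1.2, map_intCast]

end Fermat.Agent.EigenSystems
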