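import Fermat.Agent.EigenSystems.ToForms

/-!
# Multiplicity two

Multiplicity two: classes in `H¹(Γ₀(N))` which are eigen for the operators at all primes, with a
non-Eisenstein system, span at most a plane (a form and a conjugate form, each determined by its
eigenvalues through the `q`-expansion).
-/

set_option autoImplicit false

open CongruenceSubgroup ModularCurve ModularCurve.Period
open scoped MatrixGroups ComplexConjugate

universe uK

namespace Fermat.Agent.EigenSystems

open HeckeJ0 HeckeModule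

variable {N : ℕ} [NeZero N]

/-- An eigenform for all primes with vanishing first coefficient is zero. -/
theorem eq_zero_of_qCoeff_one {lam : ℕ → ℂ} {f : CuspForm (Gamma0 N) 2}
    (hf : ∀ (ℓ : ℕ) (hℓ : ℓ.Prime), LevelRaising.heckeAt N ⟨ℓ, hℓ⟩ f = lam ℓ • f)
    (h1 : ModularFormClass.qCoeff f 1 = 0) : f = 0 := by
  refine HeckeEigen.eq_zero_of_forall_pairOne (by norm_num) fun t => ?_
  obtain ⟨c, hc⟩ := HeckeEigen.exists_eigenvalue_of_generators (f := f)
    (fun p hp hpN => ⟨lam p, by
      have h := hf p hp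
      rwa [LevelRaising.heckeAt, dif_neg hpN] at h⟩)
    (fun p hp hpN => ⟨lam p, by
      have h := hf p hp
      rwa [LevelRaising.heckeAt, dif_pos hpN] at h⟩) t
  rw [HeckeEigen.pairOne_apply, hc, map_smul, HeckeEigen.qCoeffLin_apply, h1, smul_zero]

/-- The forms with given eigenvalues at all primes lie on a line. -/
theorem exists_line_forms (lam : ℕ → ℂ) :
    ∃ a₀ : CuspForm (Gamma0 N) 2, ∀ f : CuspForm (Gamma0 N) 2,
      (∀ (ℓ : ℕ) (hℓ : ℓ.Prime), LevelRaising.heckeAt N ⟨ℓ, hℓ⟩ f = lam ℓ • f) →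
        ∃ r : ℂ, f = r • a₀ := by
  by_cases h : ∃ a : CuspForm (Gamma0 N) 2, a ≠ 0 ∧
      ∀ (ℓ : ℕ) (hℓ : ℓ.Prime), LevelRaising.heckeAt N ⟨ℓ, hℓ⟩ a = lam ℓ • a
  · obtain ⟨a, ha, hae⟩ := h
    have ha1 : HeckeEigen.qCoeffLin N 2 1 a ≠ 0 := fun h => ha (eq_zero_of_qCoeff_one hae (by
      rwa [HeckeEigen.qCoeffLin_apply] at h))
    refine ⟨a, fun f hf => ⟨HeckeEigen.qCoeffLin N 2 1 f / HeckeEigen.qCoeffLin N 2 1 a,
      sub_eq_zero.mp (eq_zero_of_qCoeff_one (lam := lam) (fun ℓ hℓ => ?_) ?_)⟩⟩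
    · rw [map_sub, map_smul, hf, hae, smul_sub, smul_comm]
    · rw [← HeckeEigen.qCoeffLin_apply, map_sub, map_smul, smul_eq_mul, div_mul_cancel₀ _ ha1,
        sub_self]
  · exact ⟨0, fun f hf => ⟨0, by
      rw [zero_smul]
      exact by_contra fun hf0 => h ⟨f, hf0, hf⟩⟩⟩

/-- Over `ℂ`: eigen classes for all primes span at most a plane. -/
theorem exists_plane_complex {lam : ℕ → ℂ} (hne : NonEisensteinSystem N ∅ lam) :
    ∃ v : Fin 2 → Gamma0 N → ℂ, ∀ z : Cocycle (cRep N),
      (∀ (ℓ : ℕ) [Fact ℓ.Prime],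
        heckeOp (cRep N) ℓ (toCoh (cRep N) z) = lam ℓ • toCoh (cRep N) z) →
        z.1 ∈ Submodule.span ℂ (Set.range v) := by
  obtain ⟨a₀, ha₀⟩ := exists_line_forms (N := N) lam
  obtain ⟨b₀, hb₀⟩ := exists_line_forms (N := N) fun ℓ => conj (lam ℓ)
  refine ⟨![(periodCocycle a₀).1, (conjCocycle (periodCocycle b₀)).1], fun z hc => ?_⟩
  have hc' : IsEigen (cRep N) ∅ lam (toCoh (cRep N) z) := fun ℓ hℓ _ _ => hc ℓ
  obtain ⟨a, b, hz⟩ := exists_period_add_conj z
    (isParabolicHom_homOf cRep_eq_one fun u v huv =>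
      apply_parElt_eq_zero (fun t ht x hx => (smul_eq_zero.mp hx).resolve_left ht) hc' hne huv)
  have hT : ∀ (ℓ : ℕ) (hℓ : ℓ.Prime),
      LevelRaising.heckeAt N ⟨ℓ, hℓ⟩ a = lam ℓ • a ∧
        LevelRaising.heckeAt N ⟨ℓ, hℓ⟩ b = conj (lam ℓ) • b := by
    intro ℓ hℓ
    have : Fact ℓ.Prime := ⟨hℓ⟩
    have : NeZero ℓ := ⟨hℓ.ne_zero⟩
    have hP : ∀ f, periodCocycle (LevelRaising.heckeAt N ⟨ℓ, hℓ⟩ f)
        = (heckeData (cRep N) ℓ).onCocycles toGL_injective (periodCocycle f) := fun f =>
      toCoh_injective cRep_eq_one (by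
        rw [← heckeOp_toCoh, ← periodClass_apply, ← periodClass_apply, periodClass_heckeAt])
    have h := hc ℓ
    rw [heckeOp_toCoh, ← map_smul] at h
    have h' := toCoh_injective cRep_eq_one h
    rw [hz, map_add, ← hP] at h'
    unfold conjCocycle at h'
    rw [← mapCocycle_hecke, ← hP] at h'
    have key := eq_zero_of_period_add_conj
      (a := LevelRaising.heckeAt N ⟨ℓ, hℓ⟩ a - lam ℓ • a)
      (b := LevelRaising.heckeAt N ⟨ℓ, hℓ⟩ b - conj (lam ℓ) • b) (Subtype.ext (funext fun γ => ?_))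
    · exact ⟨sub_eq_zero.mp key.1, sub_eq_zero.mp key.2⟩
    · have hγ := congrArg (fun w : Cocycle (cRep N) => w.1 γ) h'
      show (periodCocycle _).1 γ + conj ((periodCocycle _).1 γ) = 0
      simp only [map_sub, map_smul] at *
      change _ + conj _ = lam ℓ * ((periodCocycle a).1 γ + conj ((periodCocycle b).1 γ)) at hγ
      show ((periodCocycle _).1 γ - lam ℓ * (periodCocycle a).1 γ)
        + conj ((periodCocycle _).1 γ - conj (lam ℓ) * (periodCocycle b).1 γ) = 0
      rw [map_sub, map_mul, Complex.conj_conj]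
      linear_combination hγ
  obtain ⟨r, hr⟩ := ha₀ a fun ℓ hℓ => (hT ℓ hℓ).1
  obtain ⟨s, hs⟩ := hb₀ b fun ℓ hℓ => (hT ℓ hℓ).2
  have e : z.1 = r • (periodCocycle a₀).1 + conj s • (conjCocycle (periodCocycle b₀)).1 := by
    funext γ
    rw [hz, hr, hs, map_smul, map_smul]
    show r • (periodCocycle a₀).1 γ + conj (s • (periodCocycle b₀).1 γ) = _
    rw [smul_eq_mul, smul_eq_mul, map_mul]
    rfl
  rw [e]
  exact add_mem (Submodule.smul_mem _ _ (Submodule.subset_span ⟨0, rfl⟩))
    (Submodule.smul_mem _ _ (Submodule.subset_span ⟨1, rfl⟩))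

section Field

variable {K : Type uK} [Field K] [CharZero K] {ρ : Representation K (ZMod N)ˣ K}
  (hρ : ∀ u, ρ u = 1)
include hρ

/-- **Multiplicity two**: eigen classes for all primes are linearly dependent as soon as there are
three of them. -/
theorem not_linearIndependent_of_eigen {lam : ℕ → K} (hne : NonEisensteinSystem N ∅ lam)
    (c : Fin 3 → Coh1 ρ) (hc : ∀ i (ℓ : ℕ) [Fact ℓ.Prime], heckeOp ρ ℓ (c i) = lam ℓ • c i) :
    ¬ LinearIndependent K c := by
  classical
  choose z hz using fun i => toCoh_surjective ρ (c i)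
  intro hli
  -- the field of eigenvalues and its embedding
  let G : Set K := {t | ∃ ℓ : ℕ, ℓ.Prime ∧ t = lam ℓ}
  have hz0 : z 0 ≠ 0 := fun h => hli.ne_zero 0 (by rw [← hz, h, map_zero])
  have hint : ∀ t ∈ G, IsIntegral ℤ t := by
    rintro t ⟨ℓ, hℓ, rfl⟩
    have : Fact ℓ.Prime := ⟨hℓ⟩
    exact isIntegral_eigenvalue hρ hz0 (hz 0 ▸ hc 0 ℓ)
  let K₀ : IntermediateField ℚ K := IntermediateField.adjoin ℚ G
  have : Algebra.IsAlgebraic ℚ K₀ :=
    IntermediateField.isAlgebraic_adjoin fun t ht => (hint t ht).tower_top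
  let ι : K₀ →ₐ[ℚ] ℂ := IsAlgClosed.lift
  let mu : ℕ → K₀ := fun ℓ => if h : lam ℓ ∈ K₀ then ⟨lam ℓ, h⟩ else 0
  have hmu : ∀ ℓ : ℕ, ℓ.Prime → (mu ℓ : K) = lam ℓ := by
    intro ℓ hℓ
    have hmem : lam ℓ ∈ K₀ := IntermediateField.subset_adjoin ℚ G ⟨ℓ, hℓ, rfl⟩
    simp only [mu, dif_pos hmem]
  have hne' : NonEisensteinSystem N ∅ fun ℓ => ι (mu ℓ) := by
    obtain ⟨ℓ, hℓ, hS, hℓN, hlam⟩ := hne
    refine ⟨ℓ, hℓ, hS, hℓN, fun h => hlam ?_⟩
    have h' : mu ℓ = (ℓ : K₀) + 1 := ι.injective (by rw [map_add, map_natCast, map_one]; exact h)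
    rw [← hmu ℓ hℓ, h']
    push_cast
    rfl
  obtain ⟨v, hv⟩ := exists_plane_complex hne'
  let _ : Algebra K₀ ℂ := (ι : K₀ →+* ℂ).toAlgebra
  -- the rational eigen functions
  let W : Submodule K₀ (Gamma0 N → K₀) :=
    Submodule.span K₀ {w | ∃ i, ∃ φ : Module.Dual K₀ K, w = fun γ => φ ((z i).1 γ)}
  have hW : ∀ w ∈ W, (fun γ => ι (w γ)) ∈ Submodule.span ℂ (Set.range v) := by
    intro w hw
    induction hw using Submodule.span_induction with
    | mem w hw =>
      obtain ⟨i, φ, rfl⟩ := hw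
      let f : K →+ ℂ := (ι : K₀ →+* ℂ).toAddMonoidHom.comp φ.toAddMonoidHom
      refine hv (mapCocycle hρ cRep_eq_one f (z i)) fun ℓ hℓ => ?_
      have : NeZero ℓ := ⟨hℓ.out.ne_zero⟩
      refine mapCocycle_eigen hρ cRep_eq_one f (hz i ▸ hc i ℓ) fun γ => ?_
      rw [← hmu ℓ hℓ.out]
      show ι (φ ((mu ℓ : K) • (z i).1 γ)) = ι (mu ℓ) * ι (φ ((z i).1 γ))
      rw [show ((mu ℓ : K) • (z i).1 γ) = mu ℓ • (z i).1 γ from rfl, map_smul, smul_eq_mul, map_mul]
    | zero =>
      have e : (fun γ => ι ((0 : Gamma0 N → K₀) γ)) = 0 := funext fun γ => map_zero ι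
      rw [e]; exact zero_mem _
    | add x y _ _ hx hy =>
      have e : (fun γ => ι ((x + y) γ)) = (fun γ => ι (x γ)) + fun γ => ι (y γ) :=
        funext fun γ => map_add ι _ _
      rw [e]; exact add_mem hx hy
    | smul r x _ hx =>
      have e : (fun γ => ι ((r • x) γ)) = ι r • fun γ => ι (x γ) :=
        funext fun γ => map_mul ι _ _
      rw [e]; exact Submodule.smul_mem _ _ hx
  have hdim : ∀ w : Fin 3 → W, ¬ LinearIndependent K₀ w := by
    intro w hw
    have hli' : LinearIndependent ℂ fun i γ => ι ((w i : Gamma0 N → K₀) γ) := by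
      rw [Fintype.linearIndependent_iff]
      intro g hg i
      refine (Module.forall_dual_apply_eq_zero_iff K₀ (g i)).mp fun ψ => ?_
      refine Fintype.linearIndependent_iff.mp hw (fun j => ψ (g j)) (Subtype.ext (funext fun γ => ?_)) i
      have h := congrArg ψ (congrFun hg γ)
      simp only [Finset.sum_apply, Pi.smul_apply, smul_eq_mul, Pi.zero_apply, map_sum, map_zero] at h
      simp only [Submodule.coe_sum, Submodule.coe_smul, Finset.sum_apply, Pi.smul_apply, smul_eq_mul]
      refine (Finset.sum_congr rfl fun j _ => ?_).trans h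
      have e : g j * ι ((w j : Gamma0 N → K₀) γ) = (w j : Gamma0 N → K₀) γ • g j := by
        rw [Algebra.smul_def, mul_comm]; rfl
      rw [e, map_smul, smul_eq_mul, mul_comm]
    have hcard : Fintype.card (Fin 3) ≤ Module.finrank ℂ (Submodule.span ℂ (Set.range v)) := by
      have : FiniteDimensional ℂ (Submodule.span ℂ (Set.range v)) :=
        FiniteDimensional.span_of_finite ℂ (Set.finite_range v)
      exact (LinearIndependent.of_comp (Submodule.span ℂ (Set.range v)).subtype
        (v := fun i => (⟨_, hW _ (w i).2⟩ : Submodule.span ℂ (Set.range v))) hli').fintype_card_le_finrank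
    have := hcard.trans (finrank_range_le_card v)
    simp at this
  have hWfin : Module.Finite K₀ W ∧ Module.finrank K₀ W ≤ 2 := by
    have hrank : Module.rank K₀ W ≤ 2 := rank_le fun s hs => by
      by_contra hcard
      obtain ⟨t, hts, ht⟩ := Finset.exists_subset_card_eq (Nat.lt_of_not_le hcard)
      exact hdim (fun i => ((t.equivFinOfCardEq ht).symm i : W))
        ((hs.comp _ (Set.inclusion_injective (Finset.coe_subset.mpr hts))).comp _
          (t.equivFinOfCardEq ht).symm.injective)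
    have hfin : Module.Finite K₀ W :=
      Module.rank_lt_aleph0_iff.mp (hrank.trans_lt (Cardinal.natCast_lt_aleph0 (n := 2)))
    exact ⟨hfin, Module.finrank_le_of_rank_le hrank⟩
  obtain ⟨hfin, hd⟩ := hWfin
  -- the cocycles lie in the `K`-span of `W`
  let B := Module.finBasis K₀ W
  let E : Fin (Module.finrank K₀ W) → Gamma0 N → K := fun j γ => ((B j : Gamma0 N → K₀) γ : K)
  have hspan : ∀ i, (z i).1 ∈ Submodule.span K (Set.range E) := by
    intro i
    let V : Submodule K₀ K := Submodule.span K₀ (Set.range (z i).1)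
    have : Module.Finite K₀ V := by
      refine Module.Finite.iff_fg.mpr ?_
      obtain ⟨s, hs⟩ := fg_span_range hρ (z i)
      refine ⟨s, le_antisymm (Submodule.span_le.mpr fun x hx => ?_) (Submodule.span_le.mpr ?_)⟩
      · have hx' : x ∈ Submodule.span ℤ (Set.range (z i).1) := hs ▸ Submodule.subset_span hx
        exact Submodule.span_le_restrictScalars ℤ K₀ _ hx'
      · intro x hx
        have hx' : x ∈ Submodule.span ℤ (s : Set K) := hs.symm ▸ Submodule.subset_span hx
        exact Submodule.span_le_restrictScalars ℤ K₀ _ hx'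
    have : Module.Free K₀ V := Module.Free.of_divisionRing K₀ V
    let b := Module.finBasis K₀ V
    choose φ hφ using fun k => LinearMap.exists_extend (p := V) (b.coord k)
    let w : Fin (Module.finrank K₀ V) → W := fun k =>
      ⟨fun γ => φ k ((z i).1 γ), Submodule.subset_span ⟨i, φ k, rfl⟩⟩
    have e : (z i).1 = ∑ j, (∑ k, (b k : K) * (B.repr (w k) j : K)) • E j := by
      funext γ
      have h1 : ∀ k, ((φ k ((z i).1 γ) : K₀) : K) = ∑ j, (B.repr (w k) j : K) * E j γ := fun k => by
        have h := congrArg (fun u : W => (u : Gamma0 N → K₀) γ) (B.sum_repr (w k))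
        simp only [Submodule.coe_sum, Submodule.coe_smul, Finset.sum_apply, Pi.smul_apply,
          smul_eq_mul] at h
        rw [show φ k ((z i).1 γ) = (w k : Gamma0 N → K₀) γ from rfl, ← h]
        simp [E]
      have h2 : (z i).1 γ = ∑ k, (b k : K) * (φ k ((z i).1 γ) : K) := by
        set x : V := ⟨(z i).1 γ, Submodule.subset_span ⟨γ, rfl⟩⟩
        have hr : ∀ k, φ k ((z i).1 γ) = b.repr x k := fun k => LinearMap.congr_fun (hφ k) x
        have h := congrArg (Subtype.val : V → K) (b.sum_repr x)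
        simp only [Submodule.coe_sum, Submodule.coe_smul] at h
        exact h.symm.trans (Finset.sum_congr rfl fun k _ => by
          rw [hr, mul_comm]; exact IntermediateField.smul_def _ _)
      rw [h2]
      simp only [h1, Finset.mul_sum, Finset.sum_apply, Pi.smul_apply, smul_eq_mul, Finset.sum_mul]
      rw [Finset.sum_comm]
      exact Finset.sum_congr rfl fun j _ => Finset.sum_congr rfl fun k _ => by ring
    rw [e]
    exact sum_mem fun j _ => Submodule.smul_mem _ _ (Submodule.subset_span ⟨j, rfl⟩)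
  have hli3 : LinearIndependent K fun i =>
      (⟨(z i).1, hspan i⟩ : Submodule.span K (Set.range E)) := by
    rw [Fintype.linearIndependent_iff]
    intro g hg i
    refine Fintype.linearIndependent_iff.mp hli g ?_ i
    have h0 : ∑ i, g i • z i = 0 := Subtype.ext (by
      have := congrArg Subtype.val hg
      simpa [Submodule.coe_sum] using this)
    simp only [← hz, ← map_smul, ← map_sum, h0, map_zero]
  have : FiniteDimensional K (Submodule.span K (Set.range E)) :=
    FiniteDimensional.span_of_finite K (Set.finite_range E)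
  have h3 := hli3.fintype_card_le_finrank.trans (finrank_range_le_card E)
  simp only [Fintype.card_fin] at h3
  omega

end Field

end Fermat.Agent.EigenSystems
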