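import Fermat.Agent.EigenSystems.Periods
import Fermat.Agent.HeckeModule.Finite
import Fermat.Agent.HeckeEigen.Eigenform
import Mathlib.FieldTheory.IntermediateField.Adjoin.Basic
import Mathlib.LinearAlgebra.Dual.Lemmas

/-!
# From eigen classes to eigenforms

From eigen classes to normalised eigenforms: a non-Eisenstein eigen class with values in a field of
characteristic zero has algebraic integral eigenvalues, which are, after an embedding into `ℂ`, the
coefficients of a normalised eigenform.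
-/

set_option autoImplicit false

open CongruenceSubgroup ModularCurve ModularCurve.Period
open scoped MatrixGroups ComplexConjugate

universe uK

namespace Fermat.Agent.EigenSystems

open HeckeJ0 HeckeModule

variable {N : ℕ} [NeZero N]

/-- A non-zero space of forms with given `T_ℓ`-eigenvalues contains a normalised eigenform. -/
theorem exists_normalized_of_ne_zero {S : Finset ℕ} {lam : ℕ → ℂ} {f : CuspForm (Gamma0 N) 2}
    (hf0 : f ≠ 0) (hf : ∀ (ℓ : ℕ) (hℓ : ℓ.Prime), ℓ ∉ S → ¬ ℓ ∣ N →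
      LevelRaising.heckeAt N ⟨ℓ, hℓ⟩ f = lam ℓ • f) :
    ∃ g : CuspForm (Gamma0 N) 2, g.IsNormalizedEigenform ∧
      ∀ ℓ : ℕ, ℓ.Prime → ℓ ∉ S → ¬ ℓ ∣ N → ModularFormClass.qCoeff g ℓ = lam ℓ := by
  classical
  have := HeckeEigen.finiteDimensional_cuspForm N 2
  let W : Submodule ℂ (CuspForm (Gamma0 N) 2) :=
    ⨅ ℓ : {ℓ : Nat.Primes // (ℓ : ℕ) ∉ S ∧ ¬ (ℓ : ℕ) ∣ N},
      LinearMap.ker (LevelRaising.heckeAt N ⟨ℓ.1, ℓ.1.2⟩ - lam ℓ.1 • LinearMap.id)
  have hmem : ∀ x, x ∈ W ↔ ∀ (ℓ : ℕ) (hℓ : ℓ.Prime), ℓ ∉ S → ¬ ℓ ∣ N →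
      LevelRaising.heckeAt N ⟨ℓ, hℓ⟩ x = lam ℓ • x := fun x => by
    simp only [W, Submodule.mem_iInf, LinearMap.mem_ker, LinearMap.sub_apply, LinearMap.smul_apply,
      LinearMap.id_apply, sub_eq_zero]
    exact ⟨fun h ℓ hℓ hS hN => h ⟨⟨ℓ, hℓ⟩, hS, hN⟩, fun h ℓ => h _ ℓ.1.2 ℓ.2.1 ℓ.2.2⟩
  obtain ⟨v, hvW, hv0, hv⟩ := LevelRaising.exists_common_eigenvector (LevelRaising.heckeAt N)
    LevelRaising.commute_heckeAt W
    ((Submodule.ne_bot_iff _).mpr ⟨f, (hmem f).mpr hf, hf0⟩) fun i x hx => by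
      refine (hmem _).mpr fun ℓ hℓ hS hN => ?_
      rw [← Module.End.mul_apply, (LevelRaising.commute_heckeAt _ i).eq, Module.End.mul_apply,
        (hmem x).mp hx ℓ hℓ hS hN, map_smul]
  have hTe : ∀ (p : ℕ) (hp : p.Prime) (hpN : ¬ p ∣ N), ∃ c : ℂ,
      CuspForm.heckeTLin 2 hp hpN v = c • v := fun p hp hpN => by
    obtain ⟨c, hc⟩ := hv ⟨p, hp⟩
    exact ⟨c, by rwa [LevelRaising.heckeAt, dif_neg hpN] at hc⟩
  have hUe : ∀ (p : ℕ) (_ : p.Prime) (hpN : p ∣ N), ∃ c : ℂ,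
      CuspForm.heckeULin 2 hpN v = c • v := fun p hp hpN => by
    obtain ⟨c, hc⟩ := hv ⟨p, hp⟩
    exact ⟨c, by rwa [LevelRaising.heckeAt, dif_pos hpN] at hc⟩
  set a := ModularFormClass.qCoeff v 1 with ha
  have ha0 : a ≠ 0 := fun ha1 => hv0 (HeckeEigen.eq_zero_of_forall_pairOne (by norm_num) fun t => by
    obtain ⟨c, hc⟩ := HeckeEigen.exists_eigenvalue_of_generators hTe hUe t
    rw [HeckeEigen.pairOne_apply, hc, map_smul, HeckeEigen.qCoeffLin_apply, ← ha, ha1, smul_zero])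
  set g := a⁻¹ • v
  have hg1 : ModularFormClass.qCoeff g 1 = 1 := by
    rw [← HeckeEigen.qCoeffLin_apply, map_smul, HeckeEigen.qCoeffLin_apply, smul_eq_mul, ← ha,
      inv_mul_cancel₀ ha0]
  have hg : g.IsNormalizedEigenform := HeckeEigen.isNormalizedEigenform_of_eigen hg1
    (fun p hp hpN => by
      obtain ⟨c, hc⟩ := hTe p hp hpN
      exact ⟨c, by rw [map_smul, hc, smul_comm]⟩)
    (fun p hp hpN => by
      obtain ⟨c, hc⟩ := hUe p hp hpN
      exact ⟨c, by rw [map_smul, hc, smul_comm]⟩)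
  refine ⟨g, hg, fun ℓ hℓ hS hN => ?_⟩
  have h := (hmem g).mp (W.smul_mem _ hvW) ℓ hℓ hS hN
  rw [LevelRaising.heckeAt, dif_neg hN,
    HeckeEigen.heckeTLin_apply_of_isNormalizedEigenform hg hℓ hN] at h
  exact smul_left_injective ℂ (smul_ne_zero (inv_ne_zero ha0) hv0) h

/-- A non-Eisenstein complex eigen class gives a normalised eigenform. -/
theorem exists_eigenform_complex {S : Finset ℕ} {lam : ℕ → ℂ} {c : Coh1 (cRep N)} (hc0 : c ≠ 0)
    (hc : IsEigen (cRep N) S lam c) (hne : NonEisensteinSystem N S lam) :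
    ∃ g : CuspForm (Gamma0 N) 2, g.IsNormalizedEigenform ∧
      ∀ ℓ : ℕ, ℓ.Prime → ℓ ∉ S → ¬ ℓ ∣ N → ModularFormClass.qCoeff g ℓ = lam ℓ := by
  obtain ⟨z, rfl⟩ := toCoh_surjective (cRep N) c
  obtain ⟨a, b, hz⟩ := exists_period_add_conj z
    (isParabolicHom_homOf cRep_eq_one fun u v huv =>
      apply_parElt_eq_zero (fun t ht x hx => (smul_eq_zero.mp hx).resolve_left ht) hc hne huv)
  have hT : ∀ (ℓ : ℕ) (hℓ : ℓ.Prime), ℓ ∉ S → ¬ ℓ ∣ N →
      LevelRaising.heckeAt N ⟨ℓ, hℓ⟩ a = lam ℓ • a ∧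
        LevelRaising.heckeAt N ⟨ℓ, hℓ⟩ b = conj (lam ℓ) • b := by
    intro ℓ hℓ hS hN
    have : Fact ℓ.Prime := ⟨hℓ⟩
    have : NeZero ℓ := ⟨hℓ.ne_zero⟩
    have hP : ∀ f, periodCocycle (LevelRaising.heckeAt N ⟨ℓ, hℓ⟩ f)
        = (heckeData (cRep N) ℓ).onCocycles toGL_injective (periodCocycle f) := fun f =>
      toCoh_injective cRep_eq_one (by
        rw [← heckeOp_toCoh, ← periodClass_apply, ← periodClass_apply, periodClass_heckeAt])
    have h := hc ℓ hS hN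
    rw [heckeOp_toCoh, ← map_smul] at h
    have h' := toCoh_injective cRep_eq_one h
    rw [hz, map_add, ← hP] at h'
    unfold conjCocycle at h'
    rw [← mapCocycle_hecke, ← hP] at h'
    have key := eq_zero_of_period_add_conj
      (a := LevelRaising.heckeAt N ⟨ℓ, hℓ⟩ a - lam ℓ • a)
      (b := LevelRaising.heckeAt N ⟨ℓ, hℓ⟩ b - conj (lam ℓ) • b) (Subtype.ext (funext fun γ => ?_))
    · exact ⟨sub_eq_zero.mp key.1, sub_eq_zero.mp key.2⟩
    · have hγ := congrArg (fun w : Cocycle (cRep N) => w.1 γ) h'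
      show (periodCocycle _).1 γ + conj ((periodCocycle _).1 γ) = 0
      simp only [map_sub, map_smul] at *
      change _ + conj _ = lam ℓ * ((periodCocycle a).1 γ + conj ((periodCocycle b).1 γ)) at hγ
      show ((periodCocycle _).1 γ - lam ℓ * (periodCocycle a).1 γ)
        + conj ((periodCocycle _).1 γ - conj (lam ℓ) * (periodCocycle b).1 γ) = 0
      rw [map_sub, map_mul, Complex.conj_conj]
      linear_combination hγ
  by_cases ha : a = 0
  · have hb : EichlerShimura.starForm b ≠ 0 := by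
      intro hb
      refine hc0 ?_
      have hb' : b = 0 := by
        rw [← EichlerShimura.starForm_starForm b, hb,
          show (0 : CuspForm (Gamma0 N) 2) = (0 : ℂ) • 0 from (zero_smul ℂ _).symm,
          EichlerShimura.starForm_smul, map_zero, zero_smul, zero_smul]
      rw [hz, ha, hb', map_zero, zero_add]
      refine (congrArg _ (Subtype.ext (funext fun γ => ?_))).trans (map_zero _)
      exact map_zero (starRingEnd ℂ)
    refine exists_normalized_of_ne_zero hb fun ℓ hℓ hS hN => ?_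
    have h := congrArg EichlerShimura.starForm (hT ℓ hℓ hS hN).2
    rw [EichlerShimura.starForm_smul, Complex.conj_conj] at h
    rw [← h, LevelRaising.heckeAt, dif_neg hN, EichlerShimura.starForm_heckeTLin]
  · exact exists_normalized_of_ne_zero ha fun ℓ hℓ hS hN => (hT ℓ hℓ hS hN).1

section Field

variable {K : Type uK} [Field K] {ρ : Representation K (ZMod N)ˣ K} (hρ : ∀ u, ρ u = 1)
include hρ

omit [NeZero N] in
/-- The values of a cocycle span a finitely generated group. -/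
theorem fg_span_range [NeZero N] (c : Cocycle ρ) : (Submodule.span ℤ (Set.range c.1)).FG := by
  classical
  obtain ⟨s, hs, hfin⟩ := Group.fg_iff.mp (HeckeModule.fg_Gamma0 (N := N))
  have hle : Submodule.span ℤ (Set.range c.1) ≤ Submodule.span ℤ (c.1 '' s) := by
    rw [Submodule.span_le]
    rintro _ ⟨γ, rfl⟩
    have hγ : γ ∈ Subgroup.closure s := hs ▸ Subgroup.mem_top γ
    induction hγ using Subgroup.closure_induction with
    | mem x hx => exact Submodule.subset_span ⟨x, hx, rfl⟩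
    | one =>
      rw [show c.1 1 = 0 from map_zero (homOf hρ c)]
      exact zero_mem _
    | mul x y _ _ hx hy =>
      rw [cocycle_mul hρ]
      exact add_mem hx hy
    | inv x _ hx =>
      rw [show c.1 x⁻¹ = -c.1 x from map_neg (homOf hρ c) (Additive.ofMul x)]
      exact neg_mem hx
  rw [le_antisymm hle (Submodule.span_mono (Set.image_subset_range _ _))]
  exact Submodule.fg_span (hfin.image _)

/-- Eigenvalues are algebraic integers. -/
theorem isIntegral_eigenvalue {c : Cocycle ρ} (hc0 : c ≠ 0) {ℓ : ℕ} [Fact ℓ.Prime] {t : K}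
    (h : heckeOp ρ ℓ (toCoh ρ c) = t • toCoh ρ c) : IsIntegral ℤ t := by
  have : NeZero ℓ := ⟨(Fact.out : ℓ.Prime).ne_zero⟩
  refine isIntegral_of_smul_mem_submodule (Submodule.span ℤ (Set.range c.1)) ?_ (fg_span_range hρ c)
    t fun x hx => ?_
  · rw [Ne, Submodule.span_eq_bot]
    exact fun h0 => hc0 (Subtype.ext (funext fun γ => h0 _ ⟨γ, rfl⟩))
  · induction hx using Submodule.span_induction with
    | mem x hx =>
      obtain ⟨γ, rfl⟩ := hx
      have hγ := congrFun (raw_eq_of_eigen hρ h) γ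
      rw [Pi.smul_apply] at hγ
      rw [← hγ, raw_apply_trivial hρ]
      exact Submodule.sum_mem _ fun y _ => Submodule.subset_span ⟨_, rfl⟩
    | zero => rw [smul_zero]; exact zero_mem _
    | add x y _ _ hx hy => rw [smul_add]; exact add_mem hx hy
    | smul n x _ hx => rw [smul_comm]; exact Submodule.smul_mem _ n hx

/-- **Eigen classes come from eigenforms.** -/
theorem exists_eigenform [CharZero K] {S : Finset ℕ} {lam : ℕ → K} {c : Coh1 ρ} (hc0 : c ≠ 0)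
    (hc : IsEigen ρ S lam c) (hne : NonEisensteinSystem N S lam) :
    ∃ (K₀ : IntermediateField ℚ K) (ι : K₀ →+* ℂ) (g : CuspForm (Gamma0 N) 2),
      g.IsNormalizedEigenform ∧ ∀ ℓ : ℕ, ℓ.Prime → ℓ ∉ S → ¬ ℓ ∣ N →
        IsIntegral ℤ (lam ℓ) ∧
        ∃ x : K₀, (x : K) = lam ℓ ∧ ι x = ModularFormClass.qCoeff g ℓ := by
  classical
  obtain ⟨z, rfl⟩ := toCoh_surjective ρ c
  have hz0 : z ≠ 0 := fun h => hc0 (by rw [h, map_zero])
  let G : Set K := {t | ∃ ℓ : ℕ, ℓ.Prime ∧ ℓ ∉ S ∧ ¬ ℓ ∣ N ∧ t = lam ℓ}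
  have hint : ∀ t ∈ G, IsIntegral ℤ t := by
    rintro t ⟨ℓ, hℓ, hS, hN, rfl⟩
    have : Fact ℓ.Prime := ⟨hℓ⟩
    exact isIntegral_eigenvalue hρ hz0 (hc ℓ hS hN)
  let K₀ : IntermediateField ℚ K := IntermediateField.adjoin ℚ G
  have : Algebra.IsAlgebraic ℚ K₀ :=
    IntermediateField.isAlgebraic_adjoin fun t ht => (hint t ht).tower_top
  let ι : K₀ →ₐ[ℚ] ℂ := IsAlgClosed.lift
  let mu : ℕ → K₀ := fun ℓ => if h : lam ℓ ∈ K₀ then ⟨lam ℓ, h⟩ else 0
  have hmu : ∀ ℓ : ℕ, ℓ.Prime → ℓ ∉ S → ¬ ℓ ∣ N → (mu ℓ : K) = lam ℓ := by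
    intro ℓ hℓ hS hN
    have hmem : lam ℓ ∈ K₀ := IntermediateField.subset_adjoin ℚ G ⟨ℓ, hℓ, hS, hN, rfl⟩
    simp only [mu, dif_pos hmem]
  obtain ⟨γ₀, hγ₀⟩ : ∃ γ, z.1 γ ≠ 0 := by
    by_contra h
    push Not at h
    exact hz0 (Subtype.ext (funext h))
  obtain ⟨φ, hφ⟩ : ∃ φ : Module.Dual K₀ K, φ (z.1 γ₀) ≠ 0 := by
    by_contra h
    push Not at h
    exact hγ₀ ((Module.forall_dual_apply_eq_zero_iff K₀ _).mp h)
  let f : K →+ ℂ := (ι : K₀ →+* ℂ).toAddMonoidHom.comp φ.toAddMonoidHom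
  have hf : ∀ (x : K₀) (a : K), f ((x : K) • a) = ι x • f a := fun x a => by
    show ι (φ ((x : K) • a)) = ι x * ι (φ a)
    rw [show ((x : K) • a) = x • a from rfl, map_smul, smul_eq_mul, map_mul]
  have hc' : IsEigen (cRep N) S (fun ℓ => ι (mu ℓ))
      (toCoh (cRep N) (mapCocycle hρ cRep_eq_one f z)) := fun ℓ hℓ hS hN => by
    have : NeZero ℓ := ⟨hℓ.out.ne_zero⟩
    refine mapCocycle_eigen hρ cRep_eq_one f (hc ℓ hS hN) fun γ => ?_
    rw [← hmu ℓ hℓ.out hS hN]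
    exact hf _ _
  have hne' : NonEisensteinSystem N S (fun ℓ => ι (mu ℓ)) := by
    obtain ⟨ℓ, hℓ, hS, hℓN, hlam⟩ := hne
    have : Fact ℓ.Prime := ⟨hℓ⟩
    refine ⟨ℓ, hℓ, hS, hℓN, fun h => hlam ?_⟩
    have h' : mu ℓ = (ℓ : K₀) + 1 := ι.injective (by rw [map_add, map_natCast, map_one]; exact h)
    rw [← hmu ℓ hℓ hS (not_dvd_of_natCast_eq_one hℓN), h']
    push_cast
    rfl
  have hne0 : toCoh (cRep N) (mapCocycle hρ cRep_eq_one f z) ≠ 0 := fun h => by
    have := congrArg (fun w : Cocycle (cRep N) => w.1 γ₀)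
      ((toCoh_eq_zero_iff_of_trivial cRep_eq_one).mp h)
    exact hφ (ι.injective (this.trans (map_zero ι).symm))
  obtain ⟨g, hg, hgℓ⟩ := exists_eigenform_complex hne0 hc' hne'
  exact ⟨K₀, ι, g, hg, fun ℓ hℓ hS hN => ⟨hint _ ⟨ℓ, hℓ, hS, hN, rfl⟩,
    mu ℓ, hmu ℓ hℓ hS hN, (hgℓ ℓ hℓ hS hN).symm⟩⟩

end Field

end Fermat.Agent.EigenSystems
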