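import Fermat.Agent.EigenSystems.Basic
import Fermat.Agent.HeckeModule.Level

/-!
# Twisting cohomology classes

The twist `c ↦ ∑ ψ(b) c | (1 b/q; 0 1)` from `H¹(Γ₀(M), χ)` to `H¹(Γ₀(M q), χ')`, `χ = χ' ψ²`,
and its commutation with the Hecke operators.
-/

set_option autoImplicit false

open CongruenceSubgroup Matrix.SpecialLinearGroup
open scoped MatrixGroups OnePoint

universe uO uA

namespace Fermat.Agent.EigenSystems

open HeckeJ0 HeckeModule

variable {M M' q : ℕ}

/-- The translation by `b / q`. -/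
noncomputable def twistMat (q : ℕ) (b : ℤ) : GL (Fin 2) ℝ :=
  Matrix.GeneralLinearGroup.mkOfDetNeZero !![1, (b : ℝ) / q; 0, 1] (by simp)

lemma val_twistMat (q : ℕ) (b : ℤ) :
    ((twistMat q b : GL (Fin 2) ℝ) : Matrix (Fin 2) (Fin 2) ℝ) = !![1, (b : ℝ) / q; 0, 1] := rfl

lemma twistMat_zero (q : ℕ) : twistMat q 0 = 1 := by
  refine Units.ext ?_
  rw [val_twistMat, Units.val_one]
  ext i j
  fin_cases i <;> fin_cases j <;> simp

lemma twistMat_add (q : ℕ) (b b' : ℤ) : twistMat q (b + b') = twistMat q b * twistMat q b' := by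
  refine Units.ext ?_
  rw [Units.val_mul, val_twistMat, val_twistMat, val_twistMat]
  ext i j
  fin_cases i <;> fin_cases j <;> simp [Matrix.mul_apply, Fin.sum_univ_two] <;> ring

/-- Conjugation by two translations. -/
lemma exists_twistConj (hq0 : q ≠ 0) (hq : q ∣ M) (hM : M * q ∣ M') (γ : Gamma0 M') {b b' : ℤ}
    (hb : (q : ℤ) ∣ b * (γ : SL(2, ℤ)) 1 1 - (γ : SL(2, ℤ)) 0 0 * b') :
    ∃ g : Gamma0 M, twistMat q b * toGL M' γ = toGL M g * twistMat q b' ∧
      dUnit M g = ZMod.unitsMap (dvd_of_mul_right_dvd hM) (dUnit M' γ) ∧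
      (g : SL(2, ℤ)) 1 0 = (γ : SL(2, ℤ)) 1 0 := by
  obtain ⟨k, hk⟩ : ((M * q : ℕ) : ℤ) ∣ (γ : SL(2, ℤ)) 1 0 :=
    (Int.natCast_dvd_natCast.mpr hM).trans ((mem_Gamma0_iff_dvd _).mp γ.2)
  obtain ⟨r, hr⟩ : (q : ℤ) ∣ (M : ℤ) := Int.natCast_dvd_natCast.mpr hq
  obtain ⟨t, ht⟩ := hb
  have hdet := (γ : SL(2, ℤ)).det_coe
  rw [Matrix.det_fin_two] at hdet
  push_cast at hk
  let g : SL(2, ℤ) := ⟨!![(γ : SL(2, ℤ)) 0 0 + b * (M * k),
      (γ : SL(2, ℤ)) 0 1 + t - b * b' * (r * k); (γ : SL(2, ℤ)) 1 0,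
      (γ : SL(2, ℤ)) 1 1 - b' * (M * k)], by
    rw [Matrix.det_fin_two_of, hk]
    rw [hk] at hdet
    linear_combination hdet + (M * k : ℤ) * ht + ((M : ℤ) * k * k * b * b') * (-hr)⟩
  refine ⟨⟨g, (mem_Gamma0_iff_dvd _).mpr ⟨q * k, ?_⟩⟩, Units.ext ?_, Units.ext ?_, rfl⟩
  · show (γ : SL(2, ℤ)) 1 0 = _
    rw [hk]; ring
  · rw [Units.val_mul, Units.val_mul, val_twistMat, val_twistMat]
    have hq' : (q : ℝ) ≠ 0 := Nat.cast_ne_zero.mpr hq0
    have hk' : (((γ : SL(2, ℤ)) 1 0 : ℤ) : ℝ) = (M : ℝ) * q * k := by exact_mod_cast hk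
    have hr' : (M : ℝ) = q * r := by exact_mod_cast hr
    have ht' : (b : ℝ) * ((γ : SL(2, ℤ)) 1 1 : ℤ) - ((γ : SL(2, ℤ)) 0 0 : ℤ) * (b' : ℝ)
        = q * (t : ℝ) := by exact_mod_cast ht
    ext i j
    simp only [Matrix.mul_apply, Fin.sum_univ_two, toGL_apply, val_mapGL_apply]
    fin_cases i <;> fin_cases j <;> simp [g, hk'] <;> field_simp
    all_goals first
      | ring1
      | linear_combination ht' - (b : ℝ) * b' * k * hr'
  · rw [coe_dUnit, ZMod.unitsMap_def, Units.coe_map, MonoidHom.coe_coe, coe_dUnit, map_intCast]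
    show (((γ : SL(2, ℤ)) 1 1 - b' * (M * k) : ℤ) : ZMod M) = _
    simp

variable [hqp : Fact q.Prime]

/-- The index of a translation. -/
def twistVal (b : (ZMod q)ˣ) : ℤ := ((b : ZMod q).val : ℤ)

lemma twistVal_cast (b : (ZMod q)ˣ) : ((twistVal b : ℤ) : ZMod q) = b := by
  simp [twistVal]

/-- Uniqueness of the translation in a coset. -/
lemma twistMat_unique (g : Gamma0 M) {x y : (ZMod q)ˣ}
    (h : toGL M g * twistMat q (twistVal x) = twistMat q (twistVal y)) : x = y := by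
  have hq0 : (q : ℝ) ≠ 0 := Nat.cast_ne_zero.mpr hqp.out.ne_zero
  have e := congrArg Units.val h
  rw [Units.val_mul, val_twistMat, val_twistMat] at e
  have e00 := congrFun (congrFun e 0) 0
  have e01 := congrFun (congrFun e 0) 1
  simp only [Matrix.mul_apply, Fin.sum_univ_two, toGL_apply, val_mapGL_apply] at e00 e01
  simp at e00 e01
  rw [e00] at e01
  simp at e01
  have : (twistVal x : ℝ) + ((g : SL(2, ℤ)) 0 1 : ℤ) * q = twistVal y := by
    field_simp at e01
    linear_combination e01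
  have h' := congrArg (Int.cast : ℤ → ZMod q)
    (show twistVal x + (g : SL(2, ℤ)) 0 1 * (q : ℤ) = twistVal y by exact_mod_cast this)
  push_cast at h'
  rw [ZMod.natCast_self, mul_zero, add_zero, twistVal_cast, twistVal_cast] at h'
  exact Units.ext h'

/-- The index moved by `γ`. -/
noncomputable def twistPerm (hqM' : q ∣ M') (γ : Gamma0 M') (x : (ZMod q)ˣ) : (ZMod q)ˣ :=
  x * ZMod.unitsMap hqM' (dUnit M' γ) ^ 2

lemma exists_twist_mul (hq : q ∣ M) (hM : M * q ∣ M') (x : (ZMod q)ˣ) (γ : Gamma0 M') :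
    ∃ g : Gamma0 M, twistMat q (twistVal x) * toGL M' γ = toGL M g *
        twistMat q (twistVal (twistPerm (hq.trans (dvd_of_mul_right_dvd hM)) γ x)) ∧
      dUnit M g = ZMod.unitsMap (dvd_of_mul_right_dvd hM) (dUnit M' γ) ∧
      (g : SL(2, ℤ)) 1 0 = (γ : SL(2, ℤ)) 1 0 := by
  refine exists_twistConj hqp.out.ne_zero hq hM γ ?_
  have hqM' : q ∣ M' := hq.trans (dvd_of_mul_right_dvd hM)
  rw [← ZMod.intCast_zmod_eq_zero_iff_dvd]
  have h := congrArg (ZMod.castHom hqM' (ZMod q)) (gamma0_diag γ)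
  rw [map_mul, map_intCast, map_one] at h
  have hd : ((ZMod.unitsMap hqM' (dUnit M' γ) : (ZMod q)ˣ) : ZMod q)
      = (((γ : SL(2, ℤ)) 1 1 : ℤ) : ZMod q) := by
    rw [ZMod.unitsMap_def, Units.coe_map, MonoidHom.coe_coe, coe_dUnit, map_intCast]
  rw [coe_dUnit, map_intCast] at h
  push_cast [twistPerm, twistVal_cast, hd]
  linear_combination (-(x : ZMod q) * (((γ : SL(2, ℤ)) 1 1 : ℤ) : ZMod q)) * h

variable {O : Type uO} [CommRing O] {A : Type uA} [AddCommGroup A] [Module O A]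
  (χ : (ZMod M)ˣ →* O) (χ' : (ZMod M')ˣ →* O) (ψ : (ZMod q)ˣ →* O)

/-- Compatibility of the characters. -/
def TwistChar (hq : q ∣ M) (hM : M * q ∣ M') : Prop :=
  ∀ u : (ZMod M')ˣ, χ (ZMod.unitsMap (dvd_of_mul_right_dvd hM) u)
    = χ' u * ψ (ZMod.unitsMap (hq.trans (dvd_of_mul_right_dvd hM)) u) ^ 2

variable {χ χ' ψ} {hq : q ∣ M} {hM : M * q ∣ M'} (hχ : TwistChar χ χ' ψ hq hM)

include hχ in
lemma twist_compat {x y : (ZMod q)ˣ} {γ : Gamma0 M'} {g : Gamma0 M}
    (h : twistMat q (twistVal x) * toGL M' γ = toGL M g * twistMat q (twistVal y)) :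
    y = twistPerm (hq.trans (dvd_of_mul_right_dvd hM)) γ x ∧
      χ (dUnit M g) = χ' (dUnit M' γ) *
        ψ (ZMod.unitsMap (hq.trans (dvd_of_mul_right_dvd hM)) (dUnit M' γ)) ^ 2 := by
  obtain ⟨g', hg', hd, -⟩ := exists_twist_mul hq hM x γ
  have h' : toGL M (g'⁻¹ * g) * twistMat q (twistVal y) = twistMat q
      (twistVal (twistPerm (hq.trans (dvd_of_mul_right_dvd hM)) γ x)) := by
    rw [map_mul, map_inv, mul_assoc, ← h, hg', inv_mul_cancel_left]
  have hy := twistMat_unique _ h'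
  refine ⟨hy, ?_⟩
  subst hy
  obtain rfl : g = g' := toGL_injective (mul_right_cancel (h.symm.trans hg'))
  rw [hd, hχ]

variable (A) in
/-- The data of the twist. -/
noncomputable def twistData :
    Data (toGL M) (toGL M') (gammaRep (scalarRep χ A)) (gammaRep (scalarRep χ' A))
      {negOne M} {negOne M'} (ZMod q)ˣ where
  α x := twistMat q (twistVal x)
  ε x := ψ x • LinearMap.id
  exists_mul x γ := ⟨_, _, (exists_twist_mul hq hM x γ).choose_spec.1⟩
  unique x y g h := twistMat_unique g h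
  compat x y γ g h := by
    obtain ⟨hy, hd⟩ := twist_compat hχ h
    refine LinearMap.ext fun a => ?_
    simp only [LinearMap.comp_apply, LinearMap.smul_apply, LinearMap.id_apply, gammaRep_apply,
      scalarRep_apply, smul_smul, hd, hy, twistPerm, map_mul, map_pow]
    congr 1
    ring
  triv x y k g hk h := by
    rw [Set.mem_singleton_iff] at hk ⊢
    subst hk
    obtain ⟨hy, -⟩ := twist_compat hχ h
    have h1 : twistMat q (twistVal x) * toGL M' (negOne M')
        = toGL M (negOne M) * twistMat q (twistVal x) := by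
      refine Units.ext ?_
      rw [Units.val_mul, Units.val_mul, val_twistMat]
      ext i j
      simp only [Matrix.mul_apply, Fin.sum_univ_two, toGL_apply, val_mapGL_apply]
      fin_cases i <;> fin_cases j <;> simp [negOne]
    obtain ⟨hy', -⟩ := twist_compat hχ h1
    rw [hy, ← hy'] at h
    exact toGL_injective (mul_right_cancel (h.symm.trans h1))

variable (A) in
/-- The twist on `H¹`. -/
noncomputable def twist : Coh1 (scalarRep χ A) →ₗ[O] Coh1 (scalarRep χ' A) :=
  (twistData A hχ).onH1 toGL_injective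

lemma twist_toCoh (c : Cocycle (scalarRep χ A)) :
    twist A hχ (toCoh _ c) = toCoh _ ((twistData A hχ).onCocycles toGL_injective c) := rfl

section Hecke

variable {ℓ : ℕ} [hℓ : Fact ℓ.Prime]

/-- `ℓ` as a unit modulo `q`. -/
noncomputable def primeUnit (hℓq : ℓ ≠ q) : (ZMod q)ˣ :=
  ZMod.unitOfCoprime ℓ ((Nat.coprime_primes hℓ.out hqp.out).mpr hℓq)

/-- The twist multiplies the eigenvalues at `ℓ` by `ψ(ℓ)⁻¹`. -/
theorem twist_heckeOp (hℓq : ℓ ≠ q) (hℓM : ℓ ∣ M' → ℓ ∣ M) (u : Coh1 (scalarRep χ A)) :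
    twist A hχ (heckeOp (scalarRep χ A) ℓ u)
      = ψ (primeUnit hℓq) • heckeOp (scalarRep χ' A) ℓ (twist A hχ u) := by
  classical
  have : NeZero ℓ := ⟨hℓ.out.ne_zero⟩
  have hMM' : M ∣ M' := dvd_of_mul_right_dvd hM
  obtain ⟨c, rfl⟩ := toCoh_surjective _ u
  rw [heckeOp_toCoh, twist_toCoh, twist_toCoh, heckeOp_toCoh, ← map_smul]
  obtain ⟨F, hF⟩ := exists_isEquivariant (toGL M) toGL_injective c
  set D := twistData A hχ
  set Tl := heckeData (scalarRep χ A) ℓ
  set Tl' := heckeData (scalarRep χ' A) ℓ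
  set w := primeUnit (q := q) hℓq with hw
  have h1 : IsEquivariant (toGL M') (gammaRep (scalarRep χ' A))
      (D.onCocycles toGL_injective (Tl.onCocycles toGL_injective c)).1 (D.act (Tl.act F)) :=
    D.isEquivariant_act toGL_injective (Tl.isEquivariant_act toGL_injective hF)
  have h2 : IsEquivariant (toGL M') (gammaRep (scalarRep χ' A))
      (ψ w • Tl'.onCocycles toGL_injective (D.onCocycles toGL_injective c)).1
      (ψ w • Tl'.act (D.act F)) :=
    (Tl'.isEquivariant_act toGL_injective (D.isEquivariant_act toGL_injective hF)).smul _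
  -- the bijection between the pairs of representatives
  let s : (ZMod q)ˣ → ℤ := fun b => (twistVal b * ℓ - twistVal (b * w)) / q
  have hw' : ((w : (ZMod q)ˣ) : ZMod q) = ℓ := by rw [hw, primeUnit, ZMod.coe_unitOfCoprime]
  have hs : ∀ b, twistVal b * (ℓ : ℤ) - twistVal (b * w) = q * s b := fun b => by
    refine (Int.mul_ediv_cancel' ?_).symm
    rw [← ZMod.intCast_zmod_eq_zero_iff_dvd]
    push_cast [twistVal_cast, hw']
    ring
  let toFin : ZMod ℓ → Idx M ℓ := fun j => ⟨(j : OnePoint (ZMod ℓ)), fun _ => OnePoint.coe_ne_infty j⟩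
  let e : (ZMod q)ˣ × Idx M' ℓ → (ZMod q)ˣ × Idx M ℓ := fun p =>
    if h : p.2.1 = ∞ then
      (p.1 * w⁻¹, ⟨∞, fun hd => absurd h (p.2.2 (hd.trans hMM'))⟩)
    else (p.1 * w, toFin (p.2.1.elim 0 id + (s p.1 : ZMod ℓ)))
  have hecoe : ∀ (b : (ZMod q)ˣ) (x : Idx M' ℓ) (j : ZMod ℓ), x.1 = j →
      e (b, x) = (b * w, toFin (j + (s b : ZMod ℓ))) := by
    intro b x j hj
    simp only [e]
    rw [dif_neg (by rw [hj]; exact OnePoint.coe_ne_infty j)]
    simp [hj]
  have hes : Function.Surjective e := by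
    rintro ⟨b, y⟩
    by_cases hy : y.1 = ∞
    · refine ⟨(b * w, ⟨∞, fun hd => absurd hy (y.2 (hℓM hd))⟩), ?_⟩
      simp only [e, dif_pos]
      exact Prod.ext (mul_inv_cancel_right b w) (Subtype.ext hy.symm)
    · obtain ⟨j, hj⟩ := OnePoint.ne_infty_iff_exists.mp hy
      refine ⟨(b * w⁻¹, ⟨((j - (s (b * w⁻¹) : ZMod ℓ) : ZMod ℓ) : OnePoint (ZMod ℓ)),
        fun _ => OnePoint.coe_ne_infty _⟩), ?_⟩
      refine (hecoe _ _ (j - (s (b * w⁻¹) : ZMod ℓ)) rfl).trans ?_
      rw [sub_add_cancel, inv_mul_cancel_right]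
      exact Prod.ext rfl (Subtype.ext hj)
  have hei : Function.Injective e := by
    rintro ⟨b, x⟩ ⟨b', x'⟩ h
    by_cases hx : x.1 = ∞ <;> by_cases hx' : x'.1 = ∞
    · simp only [e, dif_pos hx, dif_pos hx'] at h
      exact Prod.ext (mul_right_cancel (congrArg Prod.fst h)) (Subtype.ext (hx.trans hx'.symm))
    · obtain ⟨j', hj'⟩ := OnePoint.ne_infty_iff_exists.mp hx'
      rw [hecoe _ _ _ hj'.symm] at h
      simp only [e, dif_pos hx] at h
      exact absurd (congrArg Subtype.val (congrArg Prod.snd h)).symm (OnePoint.coe_ne_infty _)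
    · obtain ⟨j, hj⟩ := OnePoint.ne_infty_iff_exists.mp hx
      rw [hecoe _ _ _ hj.symm] at h
      simp only [e, dif_pos hx'] at h
      exact absurd (congrArg Subtype.val (congrArg Prod.snd h)) (OnePoint.coe_ne_infty _)
    · obtain ⟨j, hj⟩ := OnePoint.ne_infty_iff_exists.mp hx
      obtain ⟨j', hj'⟩ := OnePoint.ne_infty_iff_exists.mp hx'
      rw [hecoe _ _ _ hj.symm, hecoe _ _ _ hj'.symm, Prod.mk.injEq] at h
      obtain rfl : b = b' := mul_right_cancel h.1
      have hjj : j = j' := add_right_cancel (OnePoint.coe_injective (congrArg Subtype.val h.2))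
      exact Prod.ext rfl (Subtype.ext (hj.symm.trans ((congrArg _ hjj).trans hj')))
  have key : ∀ p : (ZMod q)ˣ × Idx M' ℓ, ∃ g : Gamma0 M,
      twistMat q (twistVal p.1) * rep p.2
          = toGL M g * (rep (e p).2 * twistMat q (twistVal (e p).1)) ∧
        dUnit M g = 1 ∧
        ψ w * χ' (aUnit p.2) * ψ p.1 = ψ (e p).1 * χ (aUnit (e p).2) := by
    rintro ⟨b, x⟩
    have hq' : (q : ℝ) ≠ 0 := Nat.cast_ne_zero.mpr hqp.out.ne_zero
    rcases rep_cases x with ⟨j, hj, hx⟩ | ⟨hj, hℓN, hx⟩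
    · rw [hecoe b x j hj]
      set i : ZMod ℓ := j + (s b : ZMod ℓ)
      rcases rep_cases (toFin i) with ⟨i', hi, hy⟩ | ⟨hi, -, -⟩
      swap
      · exact absurd hi (OnePoint.coe_ne_infty _)
      obtain rfl : i = i' := OnePoint.coe_injective hi
      obtain ⟨k, hk⟩ : (ℓ : ℤ) ∣ (j.val : ℤ) + s b - (i.val : ℤ) := by
        rw [← ZMod.intCast_zmod_eq_zero_iff_dvd]
        simp [i]
      let g : Gamma0 M := ⟨⟨!![1, k; 0, 1], by simp [Matrix.det_fin_two_of]⟩,
        (mem_Gamma0_iff_dvd _).mpr (dvd_zero _)⟩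
      refine ⟨g, ?_, Units.ext (by rw [coe_dUnit]; simp [g]), ?_⟩
      · unfold IsTri at hx hy
        refine Units.ext ?_
        rw [Units.val_mul, Units.val_mul, Units.val_mul, hx, hy, val_twistMat, val_twistMat]
        have hk' : (j.val : ℝ) + (s b : ℝ) - (i.val : ℝ) = (ℓ : ℝ) * k := by exact_mod_cast hk
        have hs' : (twistVal b : ℝ) * ℓ - (twistVal (b * w) : ℝ) = q * (s b : ℝ) := by
          exact_mod_cast hs b
        ext a a'
        simp only [Matrix.mul_apply, Fin.sum_univ_two, toGL_apply, val_mapGL_apply]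
        fin_cases a <;> fin_cases a' <;> simp [g, -ZMod.natCast_val]
        field_simp
        linear_combination (q : ℝ) * hk' + hs'
      · rw [show aUnit x = 1 from Units.ext (by rw [coe_aUnit x hx]; simp),
          show aUnit (toFin i) = 1 from Units.ext (by rw [coe_aUnit _ hy]; simp), map_one, map_one,
          map_mul]
        ring
    · have hex : e (b, x) = (b * w⁻¹, ⟨∞, fun hd => absurd hj (x.2 (hd.trans hMM'))⟩) :=
        dif_pos hj
      rw [hex]
      set y : Idx M ℓ := ⟨∞, fun hd => absurd hj (x.2 (hd.trans hMM'))⟩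
      rcases rep_cases y with ⟨i', hi, -⟩ | ⟨-, -, hy⟩
      · exact absurd hi.symm (OnePoint.coe_ne_infty _)
      obtain ⟨k, hk⟩ : (q : ℤ) ∣ twistVal b - ℓ * twistVal (b * w⁻¹) := by
        rw [← ZMod.intCast_zmod_eq_zero_iff_dvd]
        push_cast [twistVal_cast]
        rw [← hw', mul_left_comm, mul_inv_cancel₀ (Units.ne_zero w), mul_one, sub_self]
      let g : Gamma0 M := ⟨⟨!![1, k; 0, 1], by simp [Matrix.det_fin_two_of]⟩,
        (mem_Gamma0_iff_dvd _).mpr (dvd_zero _)⟩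
      refine ⟨g, ?_, Units.ext (by rw [coe_dUnit]; simp [g]), ?_⟩
      · unfold IsTri at hx hy
        refine Units.ext ?_
        rw [Units.val_mul, Units.val_mul, Units.val_mul, hx, hy, val_twistMat, val_twistMat]
        have hk' : (twistVal b : ℝ) - ℓ * (twistVal (b * w⁻¹) : ℝ) = q * (k : ℝ) := by
          exact_mod_cast hk
        ext a a'
        simp only [Matrix.mul_apply, Fin.sum_univ_two, toGL_apply, val_mapGL_apply]
        fin_cases a <;> fin_cases a' <;> simp [g]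
        field_simp
        linear_combination hk'
      · have ha : ZMod.unitsMap hMM' (aUnit x) = aUnit y := Units.ext (by
          rw [ZMod.unitsMap_def, Units.coe_map, MonoidHom.coe_coe, coe_aUnit x hx, coe_aUnit _ hy,
            map_natCast])
        have haq : ZMod.unitsMap (hq.trans hMM') (aUnit x) = w := Units.ext (by
          rw [ZMod.unitsMap_def, Units.coe_map, MonoidHom.coe_coe, coe_aUnit x hx, map_natCast,
            hw'])
        rw [← ha, hχ, haq]
        have hcancel : ψ (b * w⁻¹) * ψ w = ψ b := by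
          rw [← map_mul, inv_mul_cancel_right]
        linear_combination (-(χ' (aUnit x) * ψ w)) * hcancel
  choose g hg hgd hgw using key
  refine (cls_eq_of_equivariant h2 h1
    (∑ p, (ψ w * χ' (aUnit p.2) * ψ p.1) • c.1 (g p)) fun N => ?_).symm
  show ψ w • (∑ x : Idx M' ℓ, scalarRep χ' A (aUnit x)
      (∑ b : (ZMod q)ˣ, ψ b • F (twistMat q (twistVal b) * (rep x * N))))
    = (∑ b : (ZMod q)ˣ, ψ b •
      (∑ y : Idx M ℓ, scalarRep χ A (aUnit y) (F (rep y * (twistMat q (twistVal b) * N))))) + _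
  simp only [scalarRep_apply, Finset.smul_sum, smul_smul]
  rw [Finset.sum_comm, ← Fintype.sum_prod_type', ← Fintype.sum_prod_type',
    ← Fintype.sum_bijective e ⟨hei, hes⟩
      (fun p => (ψ w * χ' (aUnit p.2) * ψ p.1) •
        F (rep (e p).2 * (twistMat q (twistVal (e p).1) * N)))
      _ (fun p => by rw [hgw]),
    ← Finset.sum_add_distrib]
  refine Finset.sum_congr rfl fun p _ => ?_
  rw [← mul_assoc (twistMat q (twistVal p.1)), hg, mul_assoc, mul_assoc, hF, gammaRep_apply,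
    scalarRep_apply, hgd, map_one, one_smul, smul_add, ← mul_assoc (ψ w), add_comm]

end Hecke

end Fermat.Agent.EigenSystems
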